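import Fermat.Prelude.Def_GaloisRep_Residual
import Fermat.Prelude.Def_GaloisRep_ComplexConjugation
import Fermat.Prelude.Def_GaloisRep_LocalConditions
import Fermat.Prelude.Def_GaloisRep_Adic
import Fermat.Agent.Lib.Cyclo.ModCharGlobal

set_option autoImplicit false

/-!
# Cluster J, piece J2(i): irreducible + odd  ⇒  absolutely irreducible

For a two-dimensional `ResidualGaloisRep k` over a field `k` in which `2 ≠ 0`:
if complex conjugation acts with determinant `-1` and the representation is irreducible,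
then its base change to EVERY field extension `K / k` is irreducible; in particular it is
absolutely irreducible.  The oddness hypothesis is supplied either by `IsOdd` or by
`DetIsCyclotomic p` (`p` odd).

Main results (namespace `Fermat.Agent.S59`):
* `complexConjugation_ne_one`
* `absIrr_eigenbasis` : an involution of determinant `-1` on a plane has a `±1` eigenbasis
* `baseChange_isIrreducible_of_det_conj`
* `isAbsolutelyIrreducible_of_det_conj`, `isAbsolutelyIrreducible_of_isOdd`,
  `isAbsolutelyIrreducible_of_detIsCyclotomic`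
* `isOdd_conj_of_detIsCyclotomic`
-/

namespace Fermat.Agent.S59

open scoped TensorProduct

/-- Complex conjugation is not the identity of `Gal(ℚ̄/ℚ)`. -/
theorem complexConjugation_ne_one : complexConjugation ≠ 1 := by
  intro h
  obtain ⟨i, hi⟩ := IsAlgClosed.exists_pow_nat_eq (-1 : AlgebraicClosure ℚ) (n := 2) (by norm_num)
  have h4 : i ^ 4 = 1 := by
    have : i ^ 4 = (i ^ 2) ^ 2 := by ring
    rw [this, hi]; norm_num
  have h1 := Fermat.Agent.Cyclo.complexConjugation_root 4 h4
  rw [h, AlgEquiv.one_apply] at h1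
  have hi0 : i ≠ 0 := by
    rintro rfl
    norm_num at hi
  have h2 : i * i = 1 := by
    nth_rewrite 2 [h1]
    exact mul_inv_cancel₀ hi0
  rw [← sq, hi] at h2
  norm_num at h2

section LinAlg

variable {k : Type} [Field k] {V : Type} [AddCommGroup V] [Module k V]

/-- An involution of determinant `-1` on a plane (over a field with `2 ≠ 0`) has an eigenbasis
with eigenvalues `1` and `-1`. -/
theorem absIrr_eigenbasis (h2 : (2 : k) ≠ 0) (hV : Module.finrank k V = 2)
    (A : Module.End k V) (hA : A * A = 1) (hdet : LinearMap.det A = -1) :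
    ∃ e₁ e₂ : V, e₁ ≠ 0 ∧ e₂ ≠ 0 ∧ A e₁ = e₁ ∧ A e₂ = -e₂ ∧
      ∀ v : V, ∃ a b : k, v = a • e₁ + b • e₂ := by
  have hAA : ∀ v, A (A v) = v := fun v => by
    have := congrArg (fun f : Module.End k V => f v) hA
    simpa using this
  have h11 : (1 : k) ≠ -1 := by
    intro h
    apply h2
    have : (2 : k) = 1 + 1 := by norm_num
    rw [this]
    nth_rewrite 2 [h]
    ring
  -- `A ≠ 1`
  have hne1 : A ≠ 1 := by
    rintro rfl
    rw [map_one] at hdet
    exact h11 hdet
  -- `A ≠ -1`
  have hneg1 : A ≠ -1 := by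
    rintro rfl
    have : LinearMap.det (-1 : Module.End k V) = 1 := by
      have h := LinearMap.det_smul (-1 : k) (1 : Module.End k V)
      rw [hV, map_one] at h
      have e : ((-1 : k) • (1 : Module.End k V)) = -1 := by simp
      rw [e] at h
      rw [h]; norm_num
    rw [this] at hdet
    exact h11 hdet
  obtain ⟨x, hx⟩ : ∃ x, A x ≠ x := by
    by_contra hcon
    push Not at hcon
    exact hne1 (LinearMap.ext fun v => by simpa using hcon v)
  obtain ⟨y, hy⟩ : ∃ y, A y ≠ -y := by
    by_contra hcon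
    push Not at hcon
    exact hneg1 (LinearMap.ext fun v => by simpa using hcon v)
  set e₁ : V := y + A y with he₁
  set e₂ : V := x - A x with he₂
  have he₁0 : e₁ ≠ 0 := by
    intro h
    apply hy
    rw [he₁] at h
    exact eq_neg_of_add_eq_zero_right h
  have he₂0 : e₂ ≠ 0 := by
    intro h
    apply hx
    rw [he₂, sub_eq_zero] at h
    exact h.symm
  have hA1 : A e₁ = e₁ := by
    rw [he₁, map_add, hAA, add_comm]
  have hA2 : A e₂ = -e₂ := by
    rw [he₂, map_sub, hAA, neg_sub]
  refine ⟨e₁, e₂, he₁0, he₂0, hA1, hA2, ?_⟩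
  -- linear independence
  have hli : LinearIndependent k ![e₁, e₂] := by
    rw [LinearIndependent.pair_iff]
    intro s t hst
    have hst' : s • e₁ - t • e₂ = 0 := by
      have := congrArg A hst
      rw [map_add, map_smul, map_smul, hA1, hA2, map_zero, smul_neg] at this
      rw [sub_eq_add_neg]; exact this
    have hs : (2 * s) • e₁ = 0 := by
      have : (2 * s) • e₁ = (s • e₁ + t • e₂) + (s • e₁ - t • e₂) := by
        rw [mul_smul, two_smul]; abel
      rw [this, hst, hst', add_zero]
    have ht : (2 * t) • e₂ = 0 := by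
      have : (2 * t) • e₂ = (s • e₁ + t • e₂) - (s • e₁ - t • e₂) := by
        rw [mul_smul, two_smul]; abel
      rw [this, hst, hst', sub_zero]
    constructor
    · rcases smul_eq_zero.mp hs with h | h
      · exact (mul_eq_zero.mp h).resolve_left h2
      · exact absurd h he₁0
    · rcases smul_eq_zero.mp ht with h | h
      · exact (mul_eq_zero.mp h).resolve_left h2
      · exact absurd h he₂0
  have hspan : Submodule.span k (Set.range ![e₁, e₂]) = ⊤ :=
    hli.span_eq_top_of_card_eq_finrank (by rw [hV]; simp)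
  intro v
  have hv : v ∈ Submodule.span k (Set.range ![e₁, e₂]) := by rw [hspan]; trivial
  have hr : Set.range ![e₁, e₂] = {e₁, e₂} := by
    rw [Matrix.range_cons, Matrix.range_cons, Matrix.range_empty, Set.union_empty]
    rfl
  rw [hr, Submodule.mem_span_pair] at hv
  obtain ⟨a, b, hab⟩ := hv
  exact ⟨a, b, hab.symm⟩

end LinAlg

section Main

variable {k : Type} [Field k]

/-- **J2(i), general form.** If complex conjugation acts with determinant `-1` on an
irreducible `ResidualGaloisRep k` (`2 ≠ 0` in `k`), then the base change to any extension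
field is irreducible. -/
theorem baseChange_isIrreducible_of_det_conj (h2 : (2 : k) ≠ 0) (ρ : ResidualGaloisRep k)
    (hirr : ρ.IsIrreducible) (hc : LinearMap.det (ρ.ρ complexConjugation) = -1)
    (K : Type) [Field K] [Algebra k K] : (ρ.baseChange K).IsIrreducible := by
  intro W hW
  set A : Module.End k ρ.V := ρ.ρ complexConjugation with hAdef
  have hA : A * A = 1 := by
    rw [hAdef, ← map_mul, complexConjugation_mul_self, map_one]
  obtain ⟨e₁, e₂, he₁, he₂, hA1, hA2, hsp⟩ := absIrr_eigenbasis h2 ρ.finrank_eq A hA hc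
  -- the `k`-rational part of `W`
  let ι : ρ.V →ₗ[k] K ⊗[k] ρ.V := TensorProduct.mk k K ρ.V 1
  let W₀ : Submodule k ρ.V := (W.restrictScalars k).comap ι
  have hW₀mem : ∀ v : ρ.V, v ∈ W₀ ↔ (1 : K) ⊗ₜ[k] v ∈ W := fun v => Iff.rfl
  have hact : ∀ (σ : AlgebraicClosure ℚ ≃ₐ[ℚ] AlgebraicClosure ℚ) (a : K) (v : ρ.V),
      (ρ.baseChange K).ρ σ (a ⊗ₜ[k] v) = a ⊗ₜ[k] (ρ.ρ σ v) := fun σ a v => by
    change (ρ.ρ σ).baseChange K (a ⊗ₜ[k] v) = _
    rw [LinearMap.baseChange_tmul]
  have hW₀stab : ∀ σ : AlgebraicClosure ℚ ≃ₐ[ℚ] AlgebraicClosure ℚ,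
      ∀ x ∈ W₀, ρ.ρ σ x ∈ W₀ := by
    intro σ x hx
    rw [hW₀mem] at hx ⊢
    have := hW σ _ hx
    rwa [hact] at this
  have h2K : (2 : K) ≠ 0 := by
    rw [← map_ofNat (algebraMap k K) 2]
    exact (map_ne_zero_iff _ (algebraMap k K).injective).mpr h2
  -- every element of `K ⊗ V` is a combination of `1 ⊗ e₁` and `1 ⊗ e₂`
  have hdecomp : ∀ w : K ⊗[k] ρ.V, ∃ a b : K,
      w = a • ((1 : K) ⊗ₜ[k] e₁) + b • ((1 : K) ⊗ₜ[k] e₂) := by
    intro w
    induction w using TensorProduct.induction_on with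
    | zero => exact ⟨0, 0, by simp⟩
    | tmul c v =>
      obtain ⟨a, b, rfl⟩ := hsp v
      refine ⟨c * algebraMap k K a, c * algebraMap k K b, ?_⟩
      rw [TensorProduct.tmul_add, TensorProduct.tmul_smul, TensorProduct.tmul_smul,
        TensorProduct.smul_tmul', TensorProduct.smul_tmul', TensorProduct.smul_tmul',
        TensorProduct.smul_tmul', smul_eq_mul, smul_eq_mul, mul_one, mul_one,
        Algebra.smul_def, Algebra.smul_def, mul_comm (algebraMap k K a),
        mul_comm (algebraMap k K b)]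
    | add x y hx hy =>
      obtain ⟨a, b, rfl⟩ := hx
      obtain ⟨a', b', rfl⟩ := hy
      exact ⟨a + a', b + b', by rw [add_smul, add_smul]; abel⟩
  rcases hirr W₀ hW₀stab with h0 | h0
  · -- `W₀ = ⊥`, so `W = ⊥`
    left
    rw [eq_bot_iff]
    intro w hw
    obtain ⟨a, b, rfl⟩ := hdecomp w
    have hAw := hW complexConjugation _ hw
    rw [map_add, map_smul, map_smul, hact, hact] at hAw
    change a • ((1 : K) ⊗ₜ[k] (A e₁)) + b • ((1 : K) ⊗ₜ[k] (A e₂)) ∈ W at hAw
    rw [hA1, hA2, TensorProduct.tmul_neg, smul_neg] at hAw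
    have hsum := W.add_mem hw hAw
    have hdiff := W.sub_mem hw hAw
    have hs1 : (2 * a) • ((1 : K) ⊗ₜ[k] e₁) ∈ W := by
      have e : (2 * a) • ((1 : K) ⊗ₜ[k] e₁) =
          (a • ((1 : K) ⊗ₜ[k] e₁) + b • ((1 : K) ⊗ₜ[k] e₂)) +
            (a • ((1 : K) ⊗ₜ[k] e₁) + -(b • ((1 : K) ⊗ₜ[k] e₂))) := by
        rw [mul_smul, two_smul]; abel
      rw [e]; exact hsum
    have hs2 : (2 * b) • ((1 : K) ⊗ₜ[k] e₂) ∈ W := by
      have e : (2 * b) • ((1 : K) ⊗ₜ[k] e₂) =
          (a • ((1 : K) ⊗ₜ[k] e₁) + b • ((1 : K) ⊗ₜ[k] e₂)) -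
            (a • ((1 : K) ⊗ₜ[k] e₁) + -(b • ((1 : K) ⊗ₜ[k] e₂))) := by
        rw [mul_smul, two_smul]; abel
      rw [e]; exact hdiff
    have ha : a = 0 := by
      by_contra ha
      have hne : (2 * a) ≠ 0 := mul_ne_zero h2K ha
      have hmem : (1 : K) ⊗ₜ[k] e₁ ∈ W := by
        have := W.smul_mem (2 * a)⁻¹ hs1
        rwa [smul_smul, inv_mul_cancel₀ hne, one_smul] at this
      have : e₁ ∈ W₀ := (hW₀mem e₁).mpr hmem
      rw [h0, Submodule.mem_bot] at this
      exact he₁ this
    have hb : b = 0 := by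
      by_contra hb
      have hne : (2 * b) ≠ 0 := mul_ne_zero h2K hb
      have hmem : (1 : K) ⊗ₜ[k] e₂ ∈ W := by
        have := W.smul_mem (2 * b)⁻¹ hs2
        rwa [smul_smul, inv_mul_cancel₀ hne, one_smul] at this
      have : e₂ ∈ W₀ := (hW₀mem e₂).mpr hmem
      rw [h0, Submodule.mem_bot] at this
      exact he₂ this
    rw [ha, hb, zero_smul, zero_smul, add_zero]
    exact Submodule.mem_bot K |>.mpr rfl
  · -- `W₀ = ⊤`, so `W = ⊤`
    right
    rw [eq_top_iff]
    intro w _
    obtain ⟨a, b, rfl⟩ := hdecomp w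
    have m1 : (1 : K) ⊗ₜ[k] e₁ ∈ W := (hW₀mem e₁).mp (by rw [h0]; trivial)
    have m2 : (1 : K) ⊗ₜ[k] e₂ ∈ W := (hW₀mem e₂).mp (by rw [h0]; trivial)
    exact W.add_mem (W.smul_mem a m1) (W.smul_mem b m2)

/-- **J2(i).** Irreducible + determinant `-1` at complex conjugation ⇒ absolutely irreducible. -/
theorem isAbsolutelyIrreducible_of_det_conj (h2 : (2 : k) ≠ 0) (ρ : ResidualGaloisRep k)
    (hirr : ρ.IsIrreducible) (hc : LinearMap.det (ρ.ρ complexConjugation) = -1) :
    ρ.IsAbsolutelyIrreducible :=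
  baseChange_isIrreducible_of_det_conj h2 ρ hirr hc (AlgebraicClosure k)

/-- **J2(i).** Irreducible + odd ⇒ absolutely irreducible (`2 ≠ 0` in `k`). -/
theorem isAbsolutelyIrreducible_of_isOdd (h2 : (2 : k) ≠ 0) (ρ : ResidualGaloisRep k)
    (hirr : ρ.IsIrreducible) (hodd : ρ.IsOdd) : ρ.IsAbsolutelyIrreducible :=
  isAbsolutelyIrreducible_of_det_conj h2 ρ hirr
    (hodd complexConjugation complexConjugation_mul_self complexConjugation_ne_one)

/-- Irreducible + odd ⇒ irreducible after every field extension. -/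
theorem baseChange_isIrreducible_of_isOdd (h2 : (2 : k) ≠ 0) (ρ : ResidualGaloisRep k)
    (hirr : ρ.IsIrreducible) (hodd : ρ.IsOdd) (K : Type) [Field K] [Algebra k K] :
    (ρ.baseChange K).IsIrreducible :=
  baseChange_isIrreducible_of_det_conj h2 ρ hirr
    (hodd complexConjugation complexConjugation_mul_self complexConjugation_ne_one) K

/-- A residual representation with cyclotomic determinant has determinant `-1` at complex
conjugation. -/
theorem det_conj_of_detIsCyclotomic (p : ℕ) [Fact p.Prime] (ρ : ResidualGaloisRep k)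
    (hdet : (GaloisRepAdic.ofResidualGaloisRep ρ).DetIsCyclotomic p) :
    LinearMap.det (ρ.ρ complexConjugation) = -1 := by
  obtain ⟨hp, h⟩ := hdet
  have hp0 : (p : k) = 0 := by
    rw [IsLocalRing.maximalIdeal_eq_bot, Ideal.mem_bot] at hp
    exact hp
  have hpp : 0 < p := (Fact.out : p.Prime).pos
  have key := h 1 complexConjugation (p - 1) (fun μ hμ => by
    rw [pow_one] at hμ
    have : NeZero p := ⟨hpp.ne'⟩
    rw [Fermat.Agent.Cyclo.complexConjugation_root p hμ]
    have hμ0 : μ ≠ 0 := by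
      rintro rfl
      rw [zero_pow hpp.ne'] at hμ
      exact zero_ne_one hμ
    apply inv_eq_of_mul_eq_one_left
    rw [← pow_succ, Nat.sub_add_cancel hpp, hμ])
  rw [pow_one, hp0, Ideal.span_singleton_zero, Ideal.mem_bot, sub_eq_zero] at key
  change LinearMap.det (ρ.ρ complexConjugation) = _ at key
  rw [key, Nat.cast_sub hpp, hp0, Nat.cast_one, zero_sub]

/-- **J2(i), the form consumed with S56.** Irreducible + cyclotomic determinant (`p` odd)
⇒ absolutely irreducible. -/
theorem isAbsolutelyIrreducible_of_detIsCyclotomic (p : ℕ) [Fact p.Prime] (hp2 : p ≠ 2)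
    (ρ : ResidualGaloisRep k) (hirr : ρ.IsIrreducible)
    (hdet : (GaloisRepAdic.ofResidualGaloisRep ρ).DetIsCyclotomic p) :
    ρ.IsAbsolutelyIrreducible := by
  have hp0 : (p : k) = 0 := by
    have hp := hdet.1
    rw [IsLocalRing.maximalIdeal_eq_bot, Ideal.mem_bot] at hp
    exact hp
  have h2 : (2 : k) ≠ 0 := by
    intro h
    have hpr : p.Prime := Fact.out
    obtain ⟨m, hm⟩ := hpr.odd_of_ne_two hp2
    have := congrArg (Nat.cast : ℕ → k) hm
    rw [hp0, Nat.cast_add, Nat.cast_mul, Nat.cast_ofNat, h, zero_mul, zero_add,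
      Nat.cast_one] at this
    exact zero_ne_one this
  exact isAbsolutelyIrreducible_of_det_conj h2 ρ hirr (det_conj_of_detIsCyclotomic p ρ hdet)

end Main

end Fermat.Agent.S59
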