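/-
Cluster J (S59): the deformation conditions used in the Taylor-Wiles argument, in EXACTLY the shape in
which they occur in the frozen statement S56 (so that `DeformationRingData 𝒪 ρbar (condSO 𝒪 p Smin Q)`
is definitionally the type quantified over in S56).  Definitions only.  Owner: helper60.
-/
import Fermat.Prelude.Def_GaloisRep_DeformationCondition
import Fermat.Prelude.Def_GaloisRep_DeformationRingData
import Fermat.Prelude.Def_GaloisRep_StrictOrdinary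
import Fermat.Prelude.Def_GaloisRep_Flat

set_option autoImplicit false

namespace Fermat.Agent.S59

/-- Strict-ordinary at `p`, cyclotomic determinant, unramified outside `Smin ∪ Q`,
unipotent inertia at the primes of `Smin` other than `p`. -/
def condSO (𝒪 : Type) [CommRing 𝒪] (p : ℕ) (Smin Q : Finset ℕ) :
    ∀ ⦃A : Type⦄ [CommRing A] [IsLocalRing A] [Algebra 𝒪 A], GaloisRepAdic A → Prop :=
  fun _A _ _ _ ρ => GaloisRep.strictOrdinaryCondition 𝒪 p (Smin ∪ Q) ρ ∧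
    ∀ q ∈ Smin, q.Prime → q ≠ p → ρ.IsUnipotentOnInertiaAt q

/-- Flat at `p`, cyclotomic determinant, unramified outside `Smin ∪ Q`,
unipotent inertia at the primes of `Smin` other than `p`. -/
def condFl (𝒪 : Type) [CommRing 𝒪] (p : ℕ) (Smin Q : Finset ℕ) :
    ∀ ⦃A : Type⦄ [CommRing A] [IsLocalRing A] [Algebra 𝒪 A], GaloisRepAdic A → Prop :=
  fun _A _ _ _ ρ => GaloisRep.flatCondition 𝒪 p (Smin ∪ Q) ρ ∧
    ∀ q ∈ Smin, q.Prime → q ≠ p → ρ.IsUnipotentOnInertiaAt q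

/-- The conjunction of two conditions. -/
def condAnd {𝒪 : Type} [CommRing 𝒪]
    (𝒟₁ 𝒟₂ : ∀ ⦃A : Type⦄ [CommRing A] [IsLocalRing A] [Algebra 𝒪 A], GaloisRepAdic A → Prop) :
    ∀ ⦃A : Type⦄ [CommRing A] [IsLocalRing A] [Algebra 𝒪 A], GaloisRepAdic A → Prop :=
  fun _A _ _ _ ρ => 𝒟₁ ρ ∧ 𝒟₂ ρ

/-- The condition "cyclotomic determinant". -/
def condDet (𝒪 : Type) [CommRing 𝒪] (p : ℕ) :
    ∀ ⦃A : Type⦄ [CommRing A] [IsLocalRing A] [Algebra 𝒪 A], GaloisRepAdic A → Prop :=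
  fun _A _ _ _ ρ => ρ.DetIsCyclotomic p

/-- The condition "unramified outside `S`". -/
def condUnr (𝒪 : Type) [CommRing 𝒪] (S : Finset ℕ) :
    ∀ ⦃A : Type⦄ [CommRing A] [IsLocalRing A] [Algebra 𝒪 A], GaloisRepAdic A → Prop :=
  fun _A _ _ _ ρ => ∀ q : ℕ, q.Prime → q ∉ S → ρ.IsUnramifiedAt q

/-- The condition "unipotent inertia at the primes of `Smin` other than `p`". -/
def condUnip (𝒪 : Type) [CommRing 𝒪] (p : ℕ) (Smin : Finset ℕ) :
    ∀ ⦃A : Type⦄ [CommRing A] [IsLocalRing A] [Algebra 𝒪 A], GaloisRepAdic A → Prop :=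
  fun _A _ _ _ ρ => ∀ q ∈ Smin, q.Prime → q ≠ p → ρ.IsUnipotentOnInertiaAt q

/-- The condition "strict-ordinary at `p`". -/
def condStrictOrd (𝒪 : Type) [CommRing 𝒪] (p : ℕ) :
    ∀ ⦃A : Type⦄ [CommRing A] [IsLocalRing A] [Algebra 𝒪 A], GaloisRepAdic A → Prop :=
  fun _A _ _ _ ρ => ρ.IsStrictOrdinaryAt p

/-- The condition "flat at `p`". -/
def condFlat (𝒪 : Type) [CommRing 𝒪] (p : ℕ) :
    ∀ ⦃A : Type⦄ [CommRing A] [IsLocalRing A] [Algebra 𝒪 A], GaloisRepAdic A → Prop :=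
  fun _A _ _ _ ρ => ρ.IsFlatAt p

theorem condSO_iff {𝒪 : Type} [CommRing 𝒪] {p : ℕ} {Smin Q : Finset ℕ}
    {A : Type} [CommRing A] [IsLocalRing A] [Algebra 𝒪 A] (ρ : GaloisRepAdic A) :
    condSO 𝒪 p Smin Q ρ ↔
      condAnd (condAnd (condDet 𝒪 p) (condAnd (condStrictOrd 𝒪 p) (condUnr 𝒪 (Smin ∪ Q))))
        (condUnip 𝒪 p Smin) ρ :=
  Iff.rfl

theorem condFl_iff {𝒪 : Type} [CommRing 𝒪] {p : ℕ} {Smin Q : Finset ℕ}
    {A : Type} [CommRing A] [IsLocalRing A] [Algebra 𝒪 A] (ρ : GaloisRepAdic A) :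
    condFl 𝒪 p Smin Q ρ ↔
      condAnd (condAnd (condDet 𝒪 p) (condAnd (condFlat 𝒪 p) (condUnr 𝒪 (Smin ∪ Q))))
        (condUnip 𝒪 p Smin) ρ :=
  Iff.rfl

/-- A condition that is pointwise equivalent to a deformation condition is one. -/
theorem isDeformationCondition_congr {𝒪 : Type} [CommRing 𝒪] [IsLocalRing 𝒪]
    {𝒟 𝒟' : ∀ ⦃A : Type⦄ [CommRing A] [IsLocalRing A] [Algebra 𝒪 A], GaloisRepAdic A → Prop}
    (h : ∀ ⦃A : Type⦄ [CommRing A] [IsLocalRing A] [Algebra 𝒪 A] (ρ : GaloisRepAdic A),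
      𝒟 ρ ↔ 𝒟' ρ)
    (h𝒟 : GaloisRep.IsDeformationCondition 𝒪 𝒟) : GaloisRep.IsDeformationCondition 𝒪 𝒟' where
  of_isEquiv := fun A _ _ _ hA ρ ρ' e hρ => (h ρ').mp (h𝒟.of_isEquiv hA e ((h ρ).mpr hρ))
  baseChangeAlong := fun A B _ _ _ _ _ _ hA hB φ hφ ρ hρ =>
    (h _).mp (h𝒟.baseChangeAlong hA hB φ hφ ((h ρ).mpr hρ))
  of_baseChangeAlong_injective := fun A B _ _ _ _ _ _ hA hB φ hφ hinj ρ hρ =>
    (h ρ).mp (h𝒟.of_baseChangeAlong_injective hA hB φ hφ hinj ((h _).mpr hρ))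
  of_fibreProduct := fun A B C P _ _ _ _ _ _ _ _ _ _ _ _ hA hB hC hP f g pA pB hpA hpB hfg hinj
      hsurj ρ h1 h2 =>
    (h ρ).mp (h𝒟.of_fibreProduct hA hB hC hP f g pA pB hpA hpB hfg hinj hsurj
      ((h _).mpr h1) ((h _).mpr h2))
  iff_forall_surjective := fun A _ _ _ _ _ hloc hres ρ => by
    rw [← h ρ, h𝒟.iff_forall_surjective hloc hres ρ]
    constructor
    · intro H B _ _ _ hB q hq hqs
      exact (h _).mp (H hB q hq hqs)
    · intro H B _ _ _ hB q hq hqs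
      exact (h _).mpr (H hB q hq hqs)

/-- The conjunction of two deformation conditions is a deformation condition. -/
theorem isDeformationCondition_and {𝒪 : Type} [CommRing 𝒪] [IsLocalRing 𝒪]
    {𝒟₁ 𝒟₂ : ∀ ⦃A : Type⦄ [CommRing A] [IsLocalRing A] [Algebra 𝒪 A], GaloisRepAdic A → Prop}
    (h₁ : GaloisRep.IsDeformationCondition 𝒪 𝒟₁) (h₂ : GaloisRep.IsDeformationCondition 𝒪 𝒟₂) :
    GaloisRep.IsDeformationCondition 𝒪 (condAnd 𝒟₁ 𝒟₂) where
  of_isEquiv := fun A _ _ _ hA ρ ρ' e hρ =>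
    ⟨h₁.of_isEquiv hA e hρ.1, h₂.of_isEquiv hA e hρ.2⟩
  baseChangeAlong := fun A B _ _ _ _ _ _ hA hB φ hφ ρ hρ =>
    ⟨h₁.baseChangeAlong hA hB φ hφ hρ.1, h₂.baseChangeAlong hA hB φ hφ hρ.2⟩
  of_baseChangeAlong_injective := fun A B _ _ _ _ _ _ hA hB φ hφ hinj ρ hρ =>
    ⟨h₁.of_baseChangeAlong_injective hA hB φ hφ hinj hρ.1,
      h₂.of_baseChangeAlong_injective hA hB φ hφ hinj hρ.2⟩
  of_fibreProduct := fun A B C P _ _ _ _ _ _ _ _ _ _ _ _ hA hB hC hP f g pA pB hpA hpB hfg hinj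
      hsurj ρ h1 h2 =>
    ⟨h₁.of_fibreProduct hA hB hC hP f g pA pB hpA hpB hfg hinj hsurj h1.1 h2.1,
      h₂.of_fibreProduct hA hB hC hP f g pA pB hpA hpB hfg hinj hsurj h1.2 h2.2⟩
  iff_forall_surjective := fun A _ _ _ _ _ hloc hres ρ => by
    constructor
    · intro hρ B _ _ _ hB q hq hqs
      exact ⟨(h₁.iff_forall_surjective hloc hres ρ).mp hρ.1 hB q hq hqs,
        (h₂.iff_forall_surjective hloc hres ρ).mp hρ.2 hB q hq hqs⟩
    · intro H
      exact ⟨(h₁.iff_forall_surjective hloc hres ρ).mpr fun B _ _ _ hB q hq hqs =>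
          (H hB q hq hqs).1,
        (h₂.iff_forall_surjective hloc hres ρ).mpr fun B _ _ _ hB q hq hqs =>
          (H hB q hq hqs).2⟩

/-- Assembly of J3: the five basic conditions are deformation conditions ⇒ `condSO` is one. -/
theorem condSO_isDeformationCondition_of {𝒪 : Type} [CommRing 𝒪] [IsLocalRing 𝒪] {p : ℕ}
    {Smin Q : Finset ℕ}
    (hdet : GaloisRep.IsDeformationCondition 𝒪 (condDet 𝒪 p))
    (hso : GaloisRep.IsDeformationCondition 𝒪 (condStrictOrd 𝒪 p))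
    (hunr : GaloisRep.IsDeformationCondition 𝒪 (condUnr 𝒪 (Smin ∪ Q)))
    (hunip : GaloisRep.IsDeformationCondition 𝒪 (condUnip 𝒪 p Smin)) :
    GaloisRep.IsDeformationCondition 𝒪 (condSO 𝒪 p Smin Q) :=
  isDeformationCondition_congr (fun _ _ _ _ ρ => (condSO_iff ρ).symm)
    (isDeformationCondition_and (isDeformationCondition_and hdet
      (isDeformationCondition_and hso hunr)) hunip)

/-- Assembly of J3: the five basic conditions are deformation conditions ⇒ `condFl` is one. -/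
theorem condFl_isDeformationCondition_of {𝒪 : Type} [CommRing 𝒪] [IsLocalRing 𝒪] {p : ℕ}
    {Smin Q : Finset ℕ}
    (hdet : GaloisRep.IsDeformationCondition 𝒪 (condDet 𝒪 p))
    (hfl : GaloisRep.IsDeformationCondition 𝒪 (condFlat 𝒪 p))
    (hunr : GaloisRep.IsDeformationCondition 𝒪 (condUnr 𝒪 (Smin ∪ Q)))
    (hunip : GaloisRep.IsDeformationCondition 𝒪 (condUnip 𝒪 p Smin)) :
    GaloisRep.IsDeformationCondition 𝒪 (condFl 𝒪 p Smin Q) :=
  isDeformationCondition_congr (fun _ _ _ _ ρ => (condFl_iff ρ).symm)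
    (isDeformationCondition_and (isDeformationCondition_and hdet
      (isDeformationCondition_and hfl hunr)) hunip)

end Fermat.Agent.S59
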