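/-
Cluster J (S59), J7, auxiliary lemmas for the reduction map between universal deformation rings
(helper6).  No finiteness hypothesis on the residue field.

* `redAux_baseChangeAlong_comp`  : `(ρ ⊗_φ B) ⊗_ψ C ≅ ρ ⊗_{ψ ∘ φ} C`
* `redAux_residual_baseChange`   : the residual condition `ρ.residual ≅ ρbar ⊗ k_A` is stable under
                                   base change along local `𝒪`-algebra maps
* `redAux_surjective_of_lift`    : descent step (a deformation over a sub-test-algebra `B ⊆ A` of a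
                                   quotient `A` of the universal ring forces `B = A`)
* `redAux_surjective_of_sq`      : a local map of complete Noetherian local rings which is onto
                                   modulo `𝔪²` is onto
-/
import Mathlib
import Fermat.Prelude.Def_GaloisRep_DeformationCondition
import Fermat.Prelude.Def_GaloisRep_DeformationRingData
import Fermat.Agent.S53.MatRepCore

set_option autoImplicit false
set_option linter.style.haveILetI false
set_option linter.unusedSectionVars false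

namespace Fermat.Agent.S59

open IsLocalRing GaloisRep Fermat.Agent.S53

local notation "Γℚ" => (AlgebraicClosure ℚ ≃ₐ[ℚ] AlgebraicClosure ℚ)

section BaseChange

variable {A : Type} [CommRing A] [IsLocalRing A]

theorem redAux_isEquiv_symm {ρ ρ' : GaloisRepAdic A} (h : ρ.IsEquiv ρ') : ρ'.IsEquiv ρ :=
  let ⟨e⟩ := h
  ⟨e.symm⟩

theorem redAux_isEquiv_trans {ρ ρ' ρ'' : GaloisRepAdic A} (h : ρ.IsEquiv ρ')
    (h' : ρ'.IsEquiv ρ'') : ρ.IsEquiv ρ'' :=
  let ⟨e⟩ := h
  let ⟨e'⟩ := h'
  ⟨e.trans e'⟩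

theorem redAux_isEquiv_baseChange {B : Type} [CommRing B] [IsLocalRing B] (φ : A →+* B)
    (hφ : IsLocalHom φ) {ρ ρ' : GaloisRepAdic A} (h : ρ.IsEquiv ρ') :
    (ρ.baseChangeAlong φ hφ).IsEquiv (ρ'.baseChangeAlong φ hφ) :=
  let ⟨e⟩ := h
  ⟨e.baseChangeAlong φ hφ⟩

theorem redAux_ofMat_congr {r r' : Γℚ →* Matrix (Fin 2) (Fin 2) A} (h : r = r')
    (hr : MatAdicContinuous r) (hr' : MatAdicContinuous r') :
    (ofMat r hr).IsEquiv (ofMat r' hr') := by
  subst h
  exact ⟨GaloisRepAdic.Equiv.refl _⟩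

theorem redAux_baseChangeAlong_congr {B : Type} [CommRing B] [IsLocalRing B] {φ φ' : A →+* B}
    (h : φ = φ') (hφ : IsLocalHom φ) (hφ' : IsLocalHom φ') (ρ : GaloisRepAdic A) :
    (ρ.baseChangeAlong φ hφ).IsEquiv (ρ.baseChangeAlong φ' hφ') := by
  subst h
  exact ⟨GaloisRepAdic.Equiv.refl _⟩

/-- Transitivity of base change: `(ρ ⊗_φ B) ⊗_ψ C ≅ ρ ⊗_{ψ ∘ φ} C`. -/
theorem redAux_baseChangeAlong_comp {B C : Type} [CommRing B] [IsLocalRing B] [CommRing C]
    [IsLocalRing C] (φ : A →+* B) (hφ : IsLocalHom φ) (ψ : B →+* C) (hψ : IsLocalHom ψ)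
    (hψφ : IsLocalHom (ψ.comp φ)) (ρ : GaloisRepAdic A) :
    ((ρ.baseChangeAlong φ hφ).baseChangeAlong ψ hψ).IsEquiv
      (ρ.baseChangeAlong (ψ.comp φ) hψφ) := by
  obtain ⟨b⟩ := exists_basis_fin2 ρ
  have h0 := isEquiv_ofMat_toMat ρ b
  have hr := toMat_adicContinuous ρ b
  have h1 := redAux_isEquiv_baseChange ψ hψ (redAux_isEquiv_baseChange φ hφ h0)
  have h2 := redAux_isEquiv_baseChange ψ hψ (ofMat_baseChangeAlong φ hφ (toMat ρ b) hr)
  have h3 := ofMat_baseChangeAlong ψ hψ (mapMat φ (toMat ρ b)) (mapMat_adicContinuous φ hφ hr)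
  have h4 : (ofMat (mapMat ψ (mapMat φ (toMat ρ b)))
      (mapMat_adicContinuous ψ hψ (mapMat_adicContinuous φ hφ hr))).IsEquiv
      (ofMat (mapMat (ψ.comp φ) (toMat ρ b)) (mapMat_adicContinuous (ψ.comp φ) hψφ hr)) :=
    redAux_ofMat_congr (by ext σ i j; rfl) _ _
  have h5 := ofMat_baseChangeAlong (ψ.comp φ) hψφ (toMat ρ b) hr
  have h6 := redAux_isEquiv_baseChange (ψ.comp φ) hψφ h0
  exact redAux_isEquiv_trans h1 (redAux_isEquiv_trans h2 (redAux_isEquiv_trans h3
    (redAux_isEquiv_trans h4 (redAux_isEquiv_trans (redAux_isEquiv_symm h5)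
      (redAux_isEquiv_symm h6)))))

end BaseChange

section Residual

variable {𝒪 : Type} [CommRing 𝒪] [IsLocalRing 𝒪]

/-- The residual condition is stable under base change along local `𝒪`-algebra maps. -/
theorem redAux_residual_baseChange {A B : Type} [CommRing A] [IsLocalRing A] [Algebra 𝒪 A]
    [CommRing B] [IsLocalRing B] [Algebra 𝒪 B]
    [IsLocalHom (algebraMap 𝒪 A)] [IsLocalHom (algebraMap 𝒪 B)]
    (ρbar : ResidualGaloisRep (ResidueField 𝒪)) (φ : A →ₐ[𝒪] B)
    (hφ : IsLocalHom (φ : A →+* B)) (ρ : GaloisRepAdic A)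
    (hres : ρ.residual.IsEquiv (ρbar.baseChangeAlong (ResidueField.map (algebraMap 𝒪 A)))) :
    (ρ.baseChangeAlong (φ : A →+* B) hφ).residual.IsEquiv
      (ρbar.baseChangeAlong (ResidueField.map (algebraMap 𝒪 B))) := by
  obtain ⟨bbar⟩ := exists_basis_residual ρbar
  obtain ⟨b, hb⟩ := exists_basis_lifting ρ ρbar (ResidueField.map (algebraMap 𝒪 A)) bbar hres
  have h0 := isEquiv_ofMat_toMat ρ b
  have hr := toMat_adicContinuous ρ b
  obtain ⟨e1⟩ := redAux_isEquiv_trans (redAux_isEquiv_baseChange (φ : A →+* B) hφ h0)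
    (ofMat_baseChangeAlong (φ : A →+* B) hφ (toMat ρ b) hr)
  have h3 := ofMat_residual_isEquiv (mapMat (φ : A →+* B) (toMat ρ b))
    (mapMat_adicContinuous (φ : A →+* B) hφ hr) ρbar (ResidueField.map (algebraMap 𝒪 B)) bbar ?_
  · obtain ⟨e3⟩ := h3
    exact ⟨e1.residual.trans e3⟩
  · intro σ i j
    rw [mapMat_apply]
    have := hφ
    have h4 : residue B ((φ : A →+* B) (toMat ρ b σ i j))
        = ResidueField.map (φ : A →+* B) (residue A (toMat ρ b σ i j)) :=
      (ResidueField.map_residue (φ : A →+* B) _).symm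
    rw [h4, hb σ i j, ResidueField.map_map]
    congr 1
    apply RingHom.ext
    intro x
    have hcomp : ((φ : A →+* B).comp (algebraMap 𝒪 A)) = algebraMap 𝒪 B := by
      ext y
      simp
    simp only [hcomp]

end Residual

section Quotient

variable {𝒪 : Type} [CommRing 𝒪] [IsLocalRing 𝒪]

/-- A proper quotient of a local ring is local. -/
theorem redAux_isLocalRing_quotient {A : Type} [CommRing A] [IsLocalRing A] (I : Ideal A)
    (hI : I ≠ ⊤) : IsLocalRing (A ⧸ I) := by
  haveI : Nontrivial (A ⧸ I) := Ideal.Quotient.nontrivial_iff.mpr hI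
  exact IsLocalRing.of_surjective' (Ideal.Quotient.mk I) Ideal.Quotient.mk_surjective

/-- The maximal ideal of a local quotient is the image of the maximal ideal. -/
theorem redAux_mk_mem_maximalIdeal {A : Type} [CommRing A] [IsLocalRing A] (I : Ideal A)
    [IsLocalRing (A ⧸ I)] {a : A} :
    Ideal.Quotient.mk I a ∈ maximalIdeal (A ⧸ I) ↔ a ∈ maximalIdeal A := by
  haveI : IsLocalHom (Ideal.Quotient.mk I) :=
    IsLocalHom.of_surjective (Ideal.Quotient.mk I) Ideal.Quotient.mk_surjective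
  rw [mem_maximalIdeal, mem_maximalIdeal, mem_nonunits_iff, mem_nonunits_iff, not_iff_not]
  exact ⟨fun h => isUnit_of_map_unit (Ideal.Quotient.mk I) a h, fun h => h.map _⟩

/-- `A ⧸ I` is an Artinian test algebra when `A` is a Noetherian local `𝒪`-algebra with local
structure map and `𝒪 → A/𝔪` onto, and `𝔪ⁿ ≤ I` (no finiteness of the residue field). -/
theorem redAux_isArtinianTestAlgebra_quotient {A : Type} [CommRing A] [IsLocalRing A]
    [IsNoetherianRing A] [Algebra 𝒪 A] (h1 : IsLocalHom (algebraMap 𝒪 A))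
    (h2 : Function.Surjective (residue A ∘ algebraMap 𝒪 A)) (I : Ideal A)
    [IsLocalRing (A ⧸ I)] {n : ℕ} (hn : maximalIdeal A ^ n ≤ I) :
    IsArtinianTestAlgebra 𝒪 (A ⧸ I) := by
  haveI : IsLocalHom (Ideal.Quotient.mk I) :=
    IsLocalHom.of_surjective (Ideal.Quotient.mk I) Ideal.Quotient.mk_surjective
  refine ⟨⟨fun c hc => ?_⟩, ?_, ?_⟩
  · have hc' : IsUnit (Ideal.Quotient.mk I (algebraMap 𝒪 A c)) := hc
    have := isUnit_of_map_unit (Ideal.Quotient.mk I) _ hc'
    exact isUnit_of_map_unit (algebraMap 𝒪 A) c this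
  · intro z
    obtain ⟨a, rfl⟩ := IsLocalRing.residue_surjective z
    obtain ⟨a, rfl⟩ := Ideal.Quotient.mk_surjective a
    obtain ⟨c, hc⟩ := h2 (residue A a)
    refine ⟨c, ?_⟩
    have hc' : residue A (algebraMap 𝒪 A c) = residue A a := hc
    rw [← sub_eq_zero, ← map_sub, IsLocalRing.residue_eq_zero_iff] at hc'
    show residue (A ⧸ I) (Ideal.Quotient.mk I (algebraMap 𝒪 A c))
      = residue (A ⧸ I) (Ideal.Quotient.mk I a)
    rw [← sub_eq_zero, ← map_sub, ← map_sub, IsLocalRing.residue_eq_zero_iff,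
      redAux_mk_mem_maximalIdeal]
    exact hc'
  · rw [isArtinianRing_iff_isNilpotent_maximalIdeal]
    refine ⟨n, ?_⟩
    rw [Ideal.zero_eq_bot, eq_bot_iff]
    have hmap : maximalIdeal (A ⧸ I) ≤ (maximalIdeal A).map (Ideal.Quotient.mk I) := by
      intro x hx
      obtain ⟨a, rfl⟩ := Ideal.Quotient.mk_surjective x
      exact Ideal.mem_map_of_mem _ ((redAux_mk_mem_maximalIdeal I).1 hx)
    calc maximalIdeal (A ⧸ I) ^ n ≤ ((maximalIdeal A).map (Ideal.Quotient.mk I)) ^ n :=
          Ideal.pow_right_mono hmap n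
      _ = (maximalIdeal A ^ n).map (Ideal.Quotient.mk I) := (Ideal.map_pow _ _ _).symm
      _ ≤ I.map (Ideal.Quotient.mk I) := Ideal.map_mono hn
      _ = ⊥ := by rw [Ideal.map_quotient_self]

end Quotient

section Nakayama

/-- A local homomorphism from a complete local ring to a Noetherian local ring which is onto
modulo the square of the maximal ideal is onto. -/
theorem redAux_surjective_of_sq {R R' : Type} [CommRing R] [IsLocalRing R]
    [IsAdicComplete (maximalIdeal R) R] [CommRing R'] [IsLocalRing R'] [IsNoetherianRing R']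
    (f : R →+* R') [IsLocalHom f]
    (h : ∀ y : R', ∃ x : R, y - f x ∈ maximalIdeal R' ^ 2) : Function.Surjective f := by
  set J : Ideal R' := (maximalIdeal R).map f with hJdef
  have hJle : J ≤ maximalIdeal R' :=
    Ideal.map_le_iff_le_comap.mpr fun a ha => Ideal.mem_comap.mpr (map_nonunit f a ha)
  have hle : maximalIdeal R' ≤ J ⊔ maximalIdeal R' • maximalIdeal R' := by
    intro y hy
    obtain ⟨x, hx⟩ := h y
    have hx2 : y - f x ∈ maximalIdeal R' := Ideal.pow_le_self two_ne_zero hx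
    have hfx : f x ∈ maximalIdeal R' := by
      have := Ideal.sub_mem _ hy hx2
      simpa using this
    have hxm : x ∈ maximalIdeal R := by
      rw [mem_maximalIdeal, mem_nonunits_iff]
      intro hu
      exact hfx (hu.map f)
    have hy' : y = f x + (y - f x) := by ring
    rw [hy']
    refine Submodule.add_mem_sup (Ideal.mem_map_of_mem f hxm) ?_
    rw [smul_eq_mul, ← pow_two]
    exact hx
  have hJ : maximalIdeal R' ≤ J :=
    Submodule.le_of_le_smul_of_le_jacobson_bot (IsNoetherian.noetherian _)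
      (maximalIdeal_le_jacobson ⊥) hle
  have hJeq : J = maximalIdeal R' := le_antisymm hJle hJ
  haveI : IsHausdorff ((maximalIdeal R).map f) R' := by
    rw [← hJdef, hJeq]
    infer_instance
  apply surjective_of_mk_map_comp_surjective (I := maximalIdeal R) f
  intro z
  obtain ⟨y, rfl⟩ := Ideal.Quotient.mk_surjective z
  obtain ⟨x, hx⟩ := h y
  refine ⟨x, ?_⟩
  rw [RingHom.comp_apply, Ideal.Quotient.eq, ← hJdef, hJeq]
  have hx2 : y - f x ∈ maximalIdeal R' := Ideal.pow_le_self two_ne_zero hx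
  have := (maximalIdeal R').neg_mem hx2
  simpa using this

end Nakayama

section Descent

variable {𝒪 : Type} [CommRing 𝒪] [IsDomain 𝒪] [IsDiscreteValuationRing 𝒪]
  [IsAdicComplete (maximalIdeal 𝒪) 𝒪]

/-- Descent step: let `q : D'.R ↠ A` be a surjection onto an Artinian test algebra and let
`ι : B ↪ A` be an injective local map of Artinian test algebras.  If the push-forward of the
universal deformation to `A` is defined over `B`, then `ι` is onto. -/
theorem redAux_surjective_of_lift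
    {ρbar : ResidualGaloisRep (ResidueField 𝒪)}
    {𝒟' : ∀ ⦃A : Type⦄ [CommRing A] [IsLocalRing A] [Algebra 𝒪 A], GaloisRepAdic A → Prop}
    (h𝒟' : IsDeformationCondition 𝒪 𝒟') (D' : DeformationRingData 𝒪 ρbar 𝒟')
    {A B : Type} [CommRing A] [IsLocalRing A] [Algebra 𝒪 A] [CommRing B] [IsLocalRing B]
    [Algebra 𝒪 B] [IsArtinianRing A] [IsArtinianRing B]
    [IsLocalHom (algebraMap 𝒪 A)] [IsLocalHom (algebraMap 𝒪 B)]
    (hsA : Function.Surjective (residue A ∘ algebraMap 𝒪 A))
    (hsB : Function.Surjective (residue B ∘ algebraMap 𝒪 B))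
    (q : D'.R →ₐ[𝒪] A) (hq : Function.Surjective q) (hqloc : IsLocalHom (q : D'.R →+* A))
    (ι : B →ₐ[𝒪] A) (hι : Function.Injective ι) (hιloc : IsLocalHom (ι : B →+* A))
    (ρB : GaloisRepAdic B)
    (hresB : ρB.residual.IsEquiv (ρbar.baseChangeAlong (ResidueField.map (algebraMap 𝒪 B))))
    (hE : (ρB.baseChangeAlong (ι : B →+* A) hιloc).IsEquiv
      (D'.ρ.baseChangeAlong (q : D'.R →+* A) hqloc)) :
    Function.Surjective ι := by
  have hA : IsArtinianTestAlgebra 𝒪 A := ⟨inferInstance, hsA, inferInstance⟩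
  have hB : IsArtinianTestAlgebra 𝒪 B := ⟨inferInstance, hsB, inferInstance⟩
  have h1 : 𝒟' (D'.ρ.baseChangeAlong (q : D'.R →+* A) hqloc) :=
    (h𝒟'.iff_forall_surjective (inferInstance : IsLocalHom (algebraMap 𝒪 D'.R))
      D'.residue_surjective D'.ρ).1 D'.isOfType hA q hqloc hq
  have h2 : 𝒟' (ρB.baseChangeAlong (ι : B →+* A) hιloc) :=
    h𝒟'.of_isEquiv hA (redAux_isEquiv_symm hE) h1
  have h3 : 𝒟' ρB := h𝒟'.of_baseChangeAlong_injective hB hA ι hιloc hι h2
  obtain ⟨ψ, ⟨hψloc, hψE⟩, -⟩ := D'.universal B hsB ρB h3 hresB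
  have hresA := redAux_residual_baseChange ρbar q hqloc D'.ρ D'.residual_isEquiv
  obtain ⟨φ₀, -, huniq⟩ := D'.universal A hsA (D'.ρ.baseChangeAlong (q : D'.R →+* A) hqloc)
    h1 hresA
  have e1 : q = φ₀ := huniq q ⟨hqloc, ⟨GaloisRepAdic.Equiv.refl _⟩⟩
  have hcomploc : IsLocalHom ((ι : B →+* A).comp (ψ : D'.R →+* B)) :=
    @RingHom.isLocalHom_comp _ _ _ _ _ _ (ι : B →+* A) (ψ : D'.R →+* B) hιloc hψloc
  have hcomploc' : IsLocalHom ((ι.comp ψ : D'.R →ₐ[𝒪] A) : D'.R →+* A) := hcomploc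
  have e2 : ι.comp ψ = φ₀ := by
    refine huniq (ι.comp ψ) ⟨hcomploc', ?_⟩
    have a1 := redAux_baseChangeAlong_comp (ψ : D'.R →+* B) hψloc (ι : B →+* A) hιloc
      hcomploc D'.ρ
    have a2 := redAux_isEquiv_baseChange (ι : B →+* A) hιloc hψE
    exact redAux_isEquiv_trans (redAux_isEquiv_symm a1) (redAux_isEquiv_trans a2 hE)
  intro a
  obtain ⟨x, rfl⟩ := hq a
  refine ⟨ψ x, ?_⟩
  have := DFunLike.congr_fun (e2.trans e1.symm) x
  exact this

end Descent

end Fermat.Agent.S59
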