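/-
Cluster J (S59), work package J5 (patching theorem), part 2: basic structure of one patching level.
Owner: helper60.
-/
import Fermat.Prelude.Def_Algebra_PatchingDatum
import Fermat.Agent.S53.PowerSeries
import Mathlib

set_option autoImplicit false
set_option linter.style.haveILetI false

namespace Fermat.Agent.S59

open IsLocalRing

/-! ### A finite module over a local ring is killed by a power of the maximal ideal -/

section finiteModule

variable {A : Type*} [CommRing A] [IsLocalRing A] {X : Type*} [AddCommGroup X] [Module A X]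

theorem maximalIdeal_pow_card_smul_top_eq_bot [Finite X] :
    (maximalIdeal A ^ Nat.card X • ⊤ : Submodule A X) = ⊥ := by
  classical
  have key : ∀ i : ℕ, (maximalIdeal A ^ i • ⊤ : Submodule A X) = ⊥ ∨
      Nat.card ↥(maximalIdeal A ^ i • ⊤ : Submodule A X) + i ≤ Nat.card X := by
    intro i
    induction i with
    | zero =>
      right
      rw [pow_zero, Ideal.one_eq_top, Submodule.top_smul, add_zero]
      exact le_of_eq (Nat.card_congr (Submodule.topEquiv (R := A) (M := X)).toEquiv)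
    | succ i ih =>
      have hstep : (maximalIdeal A ^ (i + 1) • ⊤ : Submodule A X) =
          maximalIdeal A • (maximalIdeal A ^ i • ⊤ : Submodule A X) := by
        rw [pow_succ', Submodule.mul_smul]
      rcases ih with h0 | hcard
      · left
        rw [hstep, h0, Submodule.smul_bot]
      · by_cases hbot : (maximalIdeal A ^ (i + 1) • ⊤ : Submodule A X) = ⊥
        · exact Or.inl hbot
        · right
          have hle : (maximalIdeal A ^ (i + 1) • ⊤ : Submodule A X) ≤
              maximalIdeal A ^ i • ⊤ := by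
            rw [hstep]; exact Submodule.smul_le_right
          have hne : (maximalIdeal A ^ (i + 1) • ⊤ : Submodule A X) ≠
              maximalIdeal A ^ i • ⊤ := by
            intro heq
            apply hbot
            have hfg : (maximalIdeal A ^ i • ⊤ : Submodule A X).FG := by
              exact (Submodule.fg_top _).mp (Module.Finite.of_finite).fg_top
            have h1 := Submodule.eq_bot_of_le_smul_of_le_jacobson_bot (maximalIdeal A)
              (maximalIdeal A ^ i • ⊤ : Submodule A X) hfg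
              (by rw [← hstep, heq])
              (by rw [IsLocalRing.jacobson_eq_maximalIdeal ⊥ bot_ne_top])
            rw [heq, h1]
          have hlt : (maximalIdeal A ^ (i + 1) • ⊤ : Submodule A X) <
              maximalIdeal A ^ i • ⊤ := lt_of_le_of_ne hle hne
          have hss : ((maximalIdeal A ^ (i + 1) • ⊤ : Submodule A X) : Set X) ⊂
              ((maximalIdeal A ^ i • ⊤ : Submodule A X) : Set X) := hlt
          have := Set.ncard_lt_ncard hss (Set.toFinite _)
          rw [← Nat.card_coe_set_eq, ← Nat.card_coe_set_eq] at this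
          have h2 : Nat.card ↥(maximalIdeal A ^ (i + 1) • ⊤ : Submodule A X) <
              Nat.card ↥(maximalIdeal A ^ i • ⊤ : Submodule A X) := this
          omega
  rcases key (Nat.card X) with h | h
  · exact h
  · exfalso
    have hpos : 0 < Nat.card ↥(maximalIdeal A ^ Nat.card X • ⊤ : Submodule A X) :=
      Nat.card_pos
    omega

/-- If the quotient `Y ⧸ P` is finite of cardinality at most `c`, then `𝔪 ^ c • ⊤ ≤ P`. -/
theorem maximalIdeal_pow_smul_top_le_of_card_le {Y : Type*} [AddCommGroup Y] [Module A Y]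
    (P : Submodule A Y) [Finite (Y ⧸ P)] {c : ℕ} (hc : Nat.card (Y ⧸ P) ≤ c) :
    (maximalIdeal A ^ c • ⊤ : Submodule A Y) ≤ P := by
  intro x hx
  have h1 : P.mkQ x ∈ (maximalIdeal A ^ c • ⊤ : Submodule A (Y ⧸ P)) := by
    have := Submodule.mem_map_of_mem (f := P.mkQ) hx
    rw [Submodule.map_smul''] at this
    exact Submodule.smul_mono le_rfl le_top this
  have h2 : (maximalIdeal A ^ c • ⊤ : Submodule A (Y ⧸ P)) ≤ ⊥ := by
    rw [← maximalIdeal_pow_card_smul_top_eq_bot (A := A) (X := Y ⧸ P)]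
    exact Submodule.smul_mono_left (Ideal.pow_le_pow_right hc)
  have h3 := h2 h1
  rw [Submodule.mem_bot, Submodule.mkQ_apply, Submodule.Quotient.mk_eq_zero] at h3
  exact h3

end finiteModule


/-! ### Coordinates on one patching level -/

section level

variable {𝒪 : Type} [CommRing 𝒪] {r : ℕ} {R : Type} [CommRing R] [Algebra 𝒪 R]
  {M : Type} [AddCommGroup M] [Module R M] {J : Ideal (MvPowerSeries (Fin r) 𝒪)}
  (L : Algebra.PatchingLevel 𝒪 r R M J) {d : ℕ} (hd : L.d = d)

/-- The element of `L.N` with coordinates `c` (with respect to `L.b`, reindexed by `Fin d`). -/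
noncomputable def pvec (c : Fin d → MvPowerSeries (Fin r) 𝒪) : L.N :=
  ∑ i : Fin d, L.φ (c i) • L.b (Fin.cast hd.symm i)

theorem pvec_add (c c' : Fin d → MvPowerSeries (Fin r) 𝒪) :
    pvec L hd (c + c') = pvec L hd c + pvec L hd c' := by
  simp only [pvec, Pi.add_apply, map_add, add_smul, Finset.sum_add_distrib]

theorem pvec_zero : pvec L hd (0 : Fin d → MvPowerSeries (Fin r) 𝒪) = 0 := by
  simp only [pvec, Pi.zero_apply, map_zero, zero_smul, Finset.sum_const_zero]

theorem pvec_sub (c c' : Fin d → MvPowerSeries (Fin r) 𝒪) :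
    pvec L hd (c - c') = pvec L hd c - pvec L hd c' := by
  simp only [pvec, Pi.sub_apply, map_sub, sub_smul, Finset.sum_sub_distrib]

theorem pvec_mul (s : MvPowerSeries (Fin r) 𝒪) (c : Fin d → MvPowerSeries (Fin r) 𝒪) :
    pvec L hd (fun i => s * c i) = L.φ s • pvec L hd c := by
  simp only [pvec, map_mul, mul_smul, Finset.smul_sum]

theorem pvec_surjective (x : L.N) : ∃ c : Fin d → MvPowerSeries (Fin r) 𝒪, pvec L hd c = x := by
  subst hd
  obtain ⟨c, hc⟩ := L.b_span x
  exact ⟨c, by simpa [pvec] using hc.symm⟩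

theorem pvec_eq_zero_iff (c : Fin d → MvPowerSeries (Fin r) 𝒪) :
    pvec L hd c = 0 ↔ ∀ i, c i ∈ J := by
  subst hd
  simpa [pvec] using L.b_rel c

theorem pvec_eq_iff (c c' : Fin d → MvPowerSeries (Fin r) 𝒪) :
    pvec L hd c = pvec L hd c' ↔ ∀ i, c i - c' i ∈ J := by
  rw [← sub_eq_zero, ← pvec_sub, pvec_eq_zero_iff]
  rfl

theorem pvec_single (i : Fin d) (s : MvPowerSeries (Fin r) 𝒪) :
    pvec L hd (Pi.single i s) = L.φ s • L.b (Fin.cast hd.symm i) := by
  classical
  rw [pvec, Finset.sum_eq_single i]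
  · rw [Pi.single_eq_same]
  · intro j _ hj
    rw [Pi.single_eq_of_ne hj, map_zero, zero_smul]
  · intro h; exact absurd (Finset.mem_univ i) h

/-- The submodule `φ(𝔞) N` consists of the vectors with coordinates in `𝔞`. -/
theorem mem_map_smul_top_iff (𝔞 : Ideal (MvPowerSeries (Fin r) 𝒪)) (x : L.N) :
    x ∈ (Ideal.map L.φ 𝔞 • ⊤ : Submodule (MvPowerSeries (Fin r) 𝒪) L.N) ↔
      ∃ c : Fin d → MvPowerSeries (Fin r) 𝒪, (∀ i, c i ∈ 𝔞) ∧ pvec L hd c = x := by
  constructor
  · intro hx
    -- the set of vectors with coordinates in `𝔞` is an additive subgroup stable under `φ(𝔞)`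
    have hadd : ∀ x y : L.N,
        (∃ c : Fin d → MvPowerSeries (Fin r) 𝒪, (∀ i, c i ∈ 𝔞) ∧ pvec L hd c = x) →
        (∃ c : Fin d → MvPowerSeries (Fin r) 𝒪, (∀ i, c i ∈ 𝔞) ∧ pvec L hd c = y) →
        ∃ c : Fin d → MvPowerSeries (Fin r) 𝒪, (∀ i, c i ∈ 𝔞) ∧ pvec L hd c = x + y := by
      rintro x y ⟨c, hc, rfl⟩ ⟨c', hc', rfl⟩
      exact ⟨c + c', fun i => 𝔞.add_mem (hc i) (hc' i), pvec_add L hd c c'⟩
    have hgen : ∀ a ∈ Ideal.map L.φ 𝔞, ∀ y : L.N,
        ∃ c : Fin d → MvPowerSeries (Fin r) 𝒪, (∀ i, c i ∈ 𝔞) ∧ pvec L hd c = a • y := by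
      intro a ha
      refine Submodule.span_induction (p := fun a _ => ∀ y : L.N,
        ∃ c : Fin d → MvPowerSeries (Fin r) 𝒪, (∀ i, c i ∈ 𝔞) ∧ pvec L hd c = a • y)
        ?_ ?_ ?_ ?_ ha
      · rintro _ ⟨s, hs, rfl⟩ y
        obtain ⟨c, rfl⟩ := pvec_surjective L hd y
        exact ⟨fun i => s * c i, fun i => 𝔞.mul_mem_right _ hs, pvec_mul L hd s c⟩
      · intro y
        exact ⟨0, fun i => 𝔞.zero_mem, by rw [pvec_zero, zero_smul]⟩
      · intro a a' _ _ iha iha' y
        rw [add_smul]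
        exact hadd _ _ (iha y) (iha' y)
      · intro t a _ iha y
        rw [smul_eq_mul, mul_comm, mul_smul]
        exact iha (t • y)
    refine Submodule.smul_induction_on hx ?_ ?_
    · intro a ha y _
      exact hgen a ha y
    · intro x y hx hy
      exact hadd x y hx hy
  · rintro ⟨c, hc, rfl⟩
    refine Submodule.sum_mem _ fun i _ => ?_
    exact Submodule.smul_mem_smul (Ideal.mem_map_of_mem _ (hc i)) Submodule.mem_top

end level

/-! ### Locality of algebra endomorphisms of the power series ring, and `ψ ∘ φ` -/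

section localHom

variable {𝒪 : Type} [CommRing 𝒪] {r : ℕ}

theorem algHom_mem_maximalIdeal [IsLocalRing 𝒪]
    (θ : MvPowerSeries (Fin r) 𝒪 →ₐ[𝒪] MvPowerSeries (Fin r) 𝒪)
    {f : MvPowerSeries (Fin r) 𝒪} (hf : f ∈ maximalIdeal (MvPowerSeries (Fin r) 𝒪)) :
    θ f ∈ maximalIdeal (MvPowerSeries (Fin r) 𝒪) := by
  by_contra h
  have hu : IsUnit (θ f) := by
    rw [IsLocalRing.mem_maximalIdeal, mem_nonunits_iff, not_not] at h
    exact h
  set c₀ := MvPowerSeries.constantCoeff (θ f) with hc₀def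
  have hc₀ : IsUnit c₀ := MvPowerSeries.isUnit_iff_constantCoeff.mp hu
  have hf0 : MvPowerSeries.constantCoeff f ∈ maximalIdeal 𝒪 :=
    (Fermat.Agent.S53.PowerSeriesAux.mem_maximalIdeal_mvPowerSeries_iff).mp hf
  have hg : IsUnit (f - MvPowerSeries.C c₀) := by
    rw [MvPowerSeries.isUnit_iff_constantCoeff, map_sub, MvPowerSeries.constantCoeff_C]
    by_contra hnu
    have h1 : MvPowerSeries.constantCoeff f - c₀ ∈ maximalIdeal 𝒪 := by
      rw [IsLocalRing.mem_maximalIdeal, mem_nonunits_iff]; exact hnu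
    have h2 : c₀ ∈ maximalIdeal 𝒪 := by
      have := (maximalIdeal 𝒪).sub_mem hf0 h1
      simpa using this
    rw [IsLocalRing.mem_maximalIdeal, mem_nonunits_iff] at h2
    exact h2 hc₀
  have h3 : IsUnit (θ (f - MvPowerSeries.C c₀)) := hg.map θ
  have hC : θ (MvPowerSeries.C c₀) = MvPowerSeries.C c₀ := by
    rw [MvPowerSeries.c_eq_algebraMap]
    exact θ.commutes c₀
  rw [map_sub, hC, MvPowerSeries.isUnit_iff_constantCoeff, map_sub,
    MvPowerSeries.constantCoeff_C, ← hc₀def, sub_self] at h3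
  exact not_isUnit_zero h3

theorem map_maximalIdeal_pow_le [IsLocalRing 𝒪]
    (θ : MvPowerSeries (Fin r) 𝒪 →ₐ[𝒪] MvPowerSeries (Fin r) 𝒪) (m : ℕ) :
    Ideal.map θ (maximalIdeal (MvPowerSeries (Fin r) 𝒪) ^ m) ≤
      maximalIdeal (MvPowerSeries (Fin r) 𝒪) ^ m := by
  rw [Ideal.map_pow]
  refine Ideal.pow_right_mono ?_ m
  rw [Ideal.map_le_iff_le_comap]
  intro f hf
  exact algHom_mem_maximalIdeal θ hf

theorem algHom_mem_maximalIdeal_pow [IsLocalRing 𝒪]
    (θ : MvPowerSeries (Fin r) 𝒪 →ₐ[𝒪] MvPowerSeries (Fin r) 𝒪) {m : ℕ}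
    {f : MvPowerSeries (Fin r) 𝒪} (hf : f ∈ maximalIdeal (MvPowerSeries (Fin r) 𝒪) ^ m) :
    θ f ∈ maximalIdeal (MvPowerSeries (Fin r) 𝒪) ^ m :=
  map_maximalIdeal_pow_le θ m (Ideal.mem_map_of_mem θ hf)

/-- A power series minus its constant term lies in the ideal of the variables. -/
theorem sub_C_constantCoeff_mem_span_X (c : MvPowerSeries (Fin r) 𝒪) :
    c - MvPowerSeries.C (MvPowerSeries.constantCoeff c) ∈
      Ideal.span (Set.range (MvPowerSeries.X : Fin r → MvPowerSeries (Fin r) 𝒪)) := by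
  have := Fermat.Agent.S53.PowerSeriesAux.mem_span_X_pow_of_coeff_eq_zero (σ := Fin r) (R := 𝒪) 1
    (c - MvPowerSeries.C (MvPowerSeries.constantCoeff c)) (by
      intro x hx
      have hx0 : x = 0 := by
        rw [← Finsupp.degree_eq_zero_iff]; omega
      subst hx0
      rw [MvPowerSeries.coeff_zero_eq_constantCoeff_apply, map_sub,
        MvPowerSeries.constantCoeff_C, sub_self])
  simpa using this

theorem constantCoeff_eq_zero_of_mem_span_X {c : MvPowerSeries (Fin r) 𝒪}
    (hc : c ∈ Ideal.span (Set.range (MvPowerSeries.X : Fin r → MvPowerSeries (Fin r) 𝒪))) :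
    MvPowerSeries.constantCoeff c = 0 := by
  have hle : Ideal.span (Set.range (MvPowerSeries.X : Fin r → MvPowerSeries (Fin r) 𝒪)) ≤
      RingHom.ker (MvPowerSeries.constantCoeff (σ := Fin r) (R := 𝒪)) := by
    rw [Ideal.span_le]
    rintro _ ⟨i, rfl⟩
    exact MvPowerSeries.constantCoeff_X i
  exact hle hc

/-- An algebra map out of the power series ring that kills the variables is the constant term. -/
theorem algHom_eq_constantCoeff_of_X {B : Type} [CommRing B] [Algebra 𝒪 B]
    (θ : MvPowerSeries (Fin r) 𝒪 →ₐ[𝒪] B) (hθ : ∀ i, θ (MvPowerSeries.X i) = 0)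
    (c : MvPowerSeries (Fin r) 𝒪) :
    θ c = algebraMap 𝒪 B (MvPowerSeries.constantCoeff c) := by
  have hle : Ideal.span (Set.range (MvPowerSeries.X : Fin r → MvPowerSeries (Fin r) 𝒪)) ≤
      RingHom.ker (θ : MvPowerSeries (Fin r) 𝒪 →+* B) := by
    rw [Ideal.span_le]
    rintro _ ⟨i, rfl⟩
    exact hθ i
  have h1 : θ (c - MvPowerSeries.C (MvPowerSeries.constantCoeff c)) = 0 :=
    hle (sub_C_constantCoeff_mem_span_X c)
  rw [map_sub, sub_eq_zero] at h1
  rw [h1, MvPowerSeries.c_eq_algebraMap]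
  exact θ.commutes _

end localHom

/-! ### The maps `ψ`, `π` of one level in coordinates -/

section levelMaps

variable {𝒪 : Type} [CommRing 𝒪] {r : ℕ} {R : Type} [CommRing R] [Algebra 𝒪 R]
  {M : Type} [AddCommGroup M] [Module R M] {J : Ideal (MvPowerSeries (Fin r) 𝒪)}
  (L : Algebra.PatchingLevel 𝒪 r R M J) {d : ℕ} (hd : L.d = d)

theorem psi_phi (c : MvPowerSeries (Fin r) 𝒪) :
    L.ψ (L.φ c) = algebraMap 𝒪 R (MvPowerSeries.constantCoeff c) :=
  algHom_eq_constantCoeff_of_X (L.ψ.comp L.φ) (fun i => L.ψ_φ_X i) c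

theorem pi_pvec (c : Fin d → MvPowerSeries (Fin r) 𝒪) :
    L.π (pvec L hd c) =
      ∑ i : Fin d, algebraMap 𝒪 R (MvPowerSeries.constantCoeff (c i)) •
        L.π (L.b (Fin.cast hd.symm i)) := by
  simp only [pvec, map_sum, L.π_smul, psi_phi]

theorem span_phi_X_eq :
    Ideal.span (Set.range fun i : Fin r => L.φ (MvPowerSeries.X i)) =
      Ideal.map L.φ (Ideal.span (Set.range
        (MvPowerSeries.X : Fin r → MvPowerSeries (Fin r) 𝒪))) := by
  rw [Ideal.map_span, ← Set.range_comp]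
  rfl

theorem pi_eq_zero_iff (x : L.N) :
    L.π x = 0 ↔ ∃ c : Fin d → MvPowerSeries (Fin r) 𝒪,
      (∀ i, c i ∈ Ideal.span (Set.range
        (MvPowerSeries.X : Fin r → MvPowerSeries (Fin r) 𝒪))) ∧ pvec L hd c = x := by
  rw [L.ker_π, span_phi_X_eq]
  exact mem_map_smul_top_iff L hd _ x

/-- The images of the basis vectors form an `𝒪`-basis of `M` (in function form). -/
theorem level_bijective
    (hJ : J ≤ Ideal.span (Set.range (MvPowerSeries.X : Fin r → MvPowerSeries (Fin r) 𝒪))) :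
    Function.Bijective (fun c : Fin d → 𝒪 =>
      ∑ i : Fin d, algebraMap 𝒪 R (c i) • L.π (L.b (Fin.cast hd.symm i))) := by
  have hE : ∀ c : Fin d → 𝒪,
      (∑ i : Fin d, algebraMap 𝒪 R (c i) • L.π (L.b (Fin.cast hd.symm i))) =
        L.π (pvec L hd (fun i => MvPowerSeries.C (c i))) := by
    intro c
    rw [pi_pvec]
    simp only [MvPowerSeries.constantCoeff_C]
  constructor
  · intro c c' hcc
    simp only [hE] at hcc
    rw [← sub_eq_zero, ← map_sub, ← pvec_sub, pi_eq_zero_iff L hd] at hcc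
    obtain ⟨c'', hc'', heq⟩ := hcc
    rw [pvec_eq_iff] at heq
    funext i
    have h1 : (fun i => MvPowerSeries.C (c i)) i - (fun i => MvPowerSeries.C (c' i)) i ∈
        Ideal.span (Set.range (MvPowerSeries.X : Fin r → MvPowerSeries (Fin r) 𝒪)) := by
      have h2 := hJ (heq i)
      have h3 := Ideal.sub_mem _ (hc'' i) h2
      simpa using h3
    have h4 := constantCoeff_eq_zero_of_mem_span_X h1
    simp only [map_sub, MvPowerSeries.constantCoeff_C, sub_eq_zero] at h4
    exact h4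
  · intro y
    obtain ⟨x, rfl⟩ := L.π_surjective y
    obtain ⟨c, rfl⟩ := pvec_surjective L hd x
    exact ⟨fun i => MvPowerSeries.constantCoeff (c i), (pi_pvec L hd c).symm⟩

/-- The number of basis vectors of a level is determined by `M`. -/
theorem level_d_eq [Nontrivial 𝒪] {J' : Ideal (MvPowerSeries (Fin r) 𝒪)}
    (L' : Algebra.PatchingLevel 𝒪 r R M J')
    (hJ : J ≤ Ideal.span (Set.range (MvPowerSeries.X : Fin r → MvPowerSeries (Fin r) 𝒪)))
    (hJ' : J' ≤ Ideal.span (Set.range (MvPowerSeries.X : Fin r → MvPowerSeries (Fin r) 𝒪))) :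
    L.d = L'.d := by
  letI : Module 𝒪 M := Module.compHom M (algebraMap 𝒪 R)
  have h1 : Function.Bijective
      (Fintype.linearCombination 𝒪 (fun i : Fin L.d => L.π (L.b (Fin.cast rfl i)))) :=
    level_bijective L rfl hJ
  have h2 : Function.Bijective
      (Fintype.linearCombination 𝒪 (fun i : Fin L'.d => L'.π (L'.b (Fin.cast rfl i)))) :=
    level_bijective L' rfl hJ'
  have e := (LinearEquiv.ofBijective _ h1).trans (LinearEquiv.ofBijective _ h2).symm
  have := e.finrank_eq
  rwa [Module.finrank_fin_fun, Module.finrank_fin_fun] at this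

end levelMaps

/-! ### Uniform continuity of the action on one level -/

section continuity

variable {𝒪 : Type} [CommRing 𝒪] [IsLocalRing 𝒪] {r : ℕ} {R : Type} [CommRing R] [Algebra 𝒪 R]
  {M : Type} [AddCommGroup M] [Module R M] {J : Ideal (MvPowerSeries (Fin r) 𝒪)}
  (L : Algebra.PatchingLevel 𝒪 r R M J) {d : ℕ} (hd : L.d = d)

include hd

theorem exists_surjective_quot :
    ∃ g : (Fin d → MvPowerSeries (Fin r) 𝒪 ⧸ maximalIdeal (MvPowerSeries (Fin r) 𝒪)) →
      L.N ⧸ (Ideal.map L.φ (maximalIdeal (MvPowerSeries (Fin r) 𝒪)) • ⊤ :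
        Submodule (MvPowerSeries (Fin r) 𝒪) L.N), Function.Surjective g := by
  refine ⟨fun cbar => Submodule.Quotient.mk (pvec L hd (fun i => Quotient.out (cbar i))), ?_⟩
  intro q
  obtain ⟨x, rfl⟩ := Submodule.Quotient.mk_surjective _ q
  obtain ⟨c, rfl⟩ := pvec_surjective L hd x
  refine ⟨fun i => Ideal.Quotient.mk _ (c i), ?_⟩
  show Submodule.Quotient.mk _ = Submodule.Quotient.mk _
  rw [Submodule.Quotient.eq, ← pvec_sub, mem_map_smul_top_iff L hd]
  refine ⟨_, fun i => ?_, rfl⟩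
  rw [Pi.sub_apply, ← Ideal.Quotient.eq, Ideal.Quotient.mk_out]

theorem maximalIdeal_pow_smul_top_le_map
    [Finite (MvPowerSeries (Fin r) 𝒪 ⧸ maximalIdeal (MvPowerSeries (Fin r) 𝒪))] :
    (maximalIdeal (MvPowerSeries (Fin r) 𝒪) ^
        (Nat.card (MvPowerSeries (Fin r) 𝒪 ⧸ maximalIdeal (MvPowerSeries (Fin r) 𝒪)) ^ d) • ⊤ :
      Submodule (MvPowerSeries (Fin r) 𝒪) L.N) ≤
      Ideal.map L.φ (maximalIdeal (MvPowerSeries (Fin r) 𝒪)) • ⊤ := by
  obtain ⟨g, hg⟩ := exists_surjective_quot L hd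
  haveI : Finite (L.N ⧸ (Ideal.map L.φ (maximalIdeal (MvPowerSeries (Fin r) 𝒪)) • ⊤ :
        Submodule (MvPowerSeries (Fin r) 𝒪) L.N)) := Finite.of_surjective g hg
  apply maximalIdeal_pow_smul_top_le_of_card_le
  have := Nat.card_le_card_of_surjective g hg
  rwa [Nat.card_fun, Nat.card_fin] at this

/-- Uniform continuity: `𝔫 ^ (c m) N ⊆ φ(𝔫 ^ m) N` with `c` independent of the level. -/
theorem maximalIdeal_pow_mul_smul_top_le_map
    [Finite (MvPowerSeries (Fin r) 𝒪 ⧸ maximalIdeal (MvPowerSeries (Fin r) 𝒪))] (m : ℕ) :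
    (maximalIdeal (MvPowerSeries (Fin r) 𝒪) ^
        (Nat.card (MvPowerSeries (Fin r) 𝒪 ⧸ maximalIdeal (MvPowerSeries (Fin r) 𝒪)) ^ d * m) •
          ⊤ : Submodule (MvPowerSeries (Fin r) 𝒪) L.N) ≤
      Ideal.map L.φ (maximalIdeal (MvPowerSeries (Fin r) 𝒪) ^ m) • ⊤ := by
  induction m with
  | zero =>
    rw [mul_zero, pow_zero, Ideal.one_eq_top, Ideal.map_top]
  | succ m ih =>
    rw [mul_add, mul_one, pow_add, Submodule.mul_smul, pow_succ, Ideal.map_mul,
      Submodule.mul_smul]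
    calc (maximalIdeal (MvPowerSeries (Fin r) 𝒪) ^
            (Nat.card (MvPowerSeries (Fin r) 𝒪 ⧸
              maximalIdeal (MvPowerSeries (Fin r) 𝒪)) ^ d * m) •
          (maximalIdeal (MvPowerSeries (Fin r) 𝒪) ^
            (Nat.card (MvPowerSeries (Fin r) 𝒪 ⧸
              maximalIdeal (MvPowerSeries (Fin r) 𝒪)) ^ d) • ⊤ :
            Submodule (MvPowerSeries (Fin r) 𝒪) L.N))
        ≤ maximalIdeal (MvPowerSeries (Fin r) 𝒪) ^
            (Nat.card (MvPowerSeries (Fin r) 𝒪 ⧸
              maximalIdeal (MvPowerSeries (Fin r) 𝒪)) ^ d * m) •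
          (Ideal.map L.φ (maximalIdeal (MvPowerSeries (Fin r) 𝒪)) • ⊤ :
            Submodule (MvPowerSeries (Fin r) 𝒪) L.N) :=
          Submodule.smul_mono le_rfl (maximalIdeal_pow_smul_top_le_map L hd)
      _ = Ideal.map L.φ (maximalIdeal (MvPowerSeries (Fin r) 𝒪)) •
          (maximalIdeal (MvPowerSeries (Fin r) 𝒪) ^
            (Nat.card (MvPowerSeries (Fin r) 𝒪 ⧸
              maximalIdeal (MvPowerSeries (Fin r) 𝒪)) ^ d * m) • ⊤ :
            Submodule (MvPowerSeries (Fin r) 𝒪) L.N) := by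
          rw [← Submodule.mul_smul, ← Submodule.mul_smul, mul_comm]
      _ ≤ Ideal.map L.φ (maximalIdeal (MvPowerSeries (Fin r) 𝒪)) •
          (Ideal.map L.φ (maximalIdeal (MvPowerSeries (Fin r) 𝒪) ^ m) • ⊤ :
            Submodule (MvPowerSeries (Fin r) 𝒪) L.N) :=
          Submodule.smul_mono le_rfl ih
      _ = _ := by
          rw [← Submodule.mul_smul, ← Submodule.mul_smul, mul_comm]

end continuity

end Fermat.Agent.S59
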