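/-
Cluster J (S59), work package J5 (patching theorem), part 3: adic structure of the power series
ring, of `R` and of `M`; the relation ideals tend to zero.  Owner: helper60.
-/
import Fermat.Agent.S59.PatchLevelBasic
import Fermat.Prelude.Thm_IsAdicComplete_of_module_finite

set_option autoImplicit false
set_option linter.style.haveILetI false

namespace Fermat.Agent.S59

open IsLocalRing

section powerSeries

variable {𝒪 : Type} [CommRing 𝒪] [IsLocalRing 𝒪] (r : ℕ)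

theorem finite_quotient_maximalIdeal [Finite (ResidueField 𝒪)] :
    Finite (MvPowerSeries (Fin r) 𝒪 ⧸ maximalIdeal (MvPowerSeries (Fin r) 𝒪)) := by
  let f : MvPowerSeries (Fin r) 𝒪 →+* ResidueField 𝒪 :=
    (residue 𝒪).comp MvPowerSeries.constantCoeff
  have hf : ∀ a : MvPowerSeries (Fin r) 𝒪,
      f a = 0 ↔ a ∈ maximalIdeal (MvPowerSeries (Fin r) 𝒪) := by
    intro a
    rw [Fermat.Agent.S53.PowerSeriesAux.mem_maximalIdeal_mvPowerSeries_iff]
    exact residue_eq_zero_iff _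
  let g : MvPowerSeries (Fin r) 𝒪 ⧸ maximalIdeal (MvPowerSeries (Fin r) 𝒪) →+*
      ResidueField 𝒪 := Ideal.Quotient.lift _ f (fun a ha => (hf a).mpr ha)
  have hg : Function.Injective g := by
    rw [injective_iff_map_eq_zero]
    intro q hq
    obtain ⟨a, rfl⟩ := Ideal.Quotient.mk_surjective q
    rw [Ideal.Quotient.eq_zero_iff_mem]
    exact (hf a).mp hq
  exact Finite.of_injective g hg

theorem finite_quotient_maximalIdeal_pow [IsNoetherianRing 𝒪] [Finite (ResidueField 𝒪)]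
    (m : ℕ) :
    Finite (MvPowerSeries (Fin r) 𝒪 ⧸ maximalIdeal (MvPowerSeries (Fin r) 𝒪) ^ m) :=
  haveI := finite_quotient_maximalIdeal (𝒪 := 𝒪) r
  Ideal.finite_quotient_pow (IsNoetherian.noetherian _) m

theorem finite_quotient_maximalIdeal_pow_smul_top [IsNoetherianRing 𝒪]
    [Finite (ResidueField 𝒪)] (m : ℕ) :
    Finite (MvPowerSeries (Fin r) 𝒪 ⧸
      (maximalIdeal (MvPowerSeries (Fin r) 𝒪) ^ m • ⊤ :
        Submodule (MvPowerSeries (Fin r) 𝒪) (MvPowerSeries (Fin r) 𝒪))) := by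
  haveI := finite_quotient_maximalIdeal_pow (𝒪 := 𝒪) r m
  exact Submodule.finite_quotient_smul _ Module.Finite.fg_top

end powerSeries

section relationIdeal

theorem one_add_pow_sub_one_mem {A : Type*} [CommRing A] (I : Ideal A) {l : ℕ}
    (hl : (l : A) ∈ I) {y : A} {k : ℕ} (hy : y ∈ I ^ (k + 1)) :
    (1 + y) ^ l - 1 ∈ I ^ (k + 2) := by
  have hyI : y ∈ I := Ideal.pow_le_self (Nat.succ_ne_zero k) hy
  have hS : (∑ i ∈ Finset.range l, (1 + y) ^ i) ∈ I := by
    rw [← Ideal.Quotient.eq_zero_iff_mem, map_sum]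
    have h1 : ∀ i ∈ Finset.range l, Ideal.Quotient.mk I ((1 + y) ^ i) = 1 := by
      intro i _
      rw [map_pow, map_add, map_one, Ideal.Quotient.eq_zero_iff_mem.mpr hyI, add_zero, one_pow]
    rw [Finset.sum_congr rfl h1, Finset.sum_const, Finset.card_range, nsmul_eq_mul, mul_one,
      ← map_natCast (Ideal.Quotient.mk I), Ideal.Quotient.eq_zero_iff_mem]
    exact hl
  have h2 : (1 + y) ^ l - 1 = y * ∑ i ∈ Finset.range l, (1 + y) ^ i := by
    rw [← mul_geom_sum]; ring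
  rw [h2, show k + 2 = (k + 1) + 1 from rfl, pow_succ]
  exact Ideal.mul_mem_mul hy hS

variable {𝒪 : Type} [CommRing 𝒪] [IsLocalRing 𝒪] (r : ℕ)

theorem X_mem_maximalIdeal (j : Fin r) :
    (MvPowerSeries.X j : MvPowerSeries (Fin r) 𝒪) ∈ maximalIdeal (MvPowerSeries (Fin r) 𝒪) := by
  rw [Fermat.Agent.S53.PowerSeriesAux.mem_maximalIdeal_mvPowerSeries_iff,
    MvPowerSeries.constantCoeff_X]
  exact Ideal.zero_mem _

theorem natCast_mem_maximalIdeal {l : ℕ} (hl : (l : 𝒪) ∈ maximalIdeal 𝒪) :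
    ((l : ℕ) : MvPowerSeries (Fin r) 𝒪) ∈ maximalIdeal (MvPowerSeries (Fin r) 𝒪) := by
  rw [Fermat.Agent.S53.PowerSeriesAux.mem_maximalIdeal_mvPowerSeries_iff]
  have : MvPowerSeries.constantCoeff ((l : ℕ) : MvPowerSeries (Fin r) 𝒪) = (l : 𝒪) :=
    map_natCast (MvPowerSeries.constantCoeff (σ := Fin r) (R := 𝒪)) l
  rw [this]
  exact hl

theorem one_add_X_pow_sub_one_mem {l : ℕ} (hl : (l : 𝒪) ∈ maximalIdeal 𝒪) (n : ℕ) (j : Fin r) :
    ((1 + MvPowerSeries.X j) ^ (l ^ n) - 1 : MvPowerSeries (Fin r) 𝒪) ∈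
      maximalIdeal (MvPowerSeries (Fin r) 𝒪) ^ (n + 1) := by
  induction n with
  | zero =>
    simpa using X_mem_maximalIdeal (𝒪 := 𝒪) r j
  | succ n ih =>
    have h := one_add_pow_sub_one_mem (maximalIdeal (MvPowerSeries (Fin r) 𝒪))
      (natCast_mem_maximalIdeal r hl) ih
    have h2 : (1 + ((1 + MvPowerSeries.X j) ^ (l ^ n) - 1 : MvPowerSeries (Fin r) 𝒪)) ^ l =
        (1 + MvPowerSeries.X j) ^ (l ^ (n + 1)) := by
      rw [add_sub_cancel, ← pow_mul, pow_succ]
    rwa [h2] at h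

/-- The relation ideal of level `n` is contained in `𝔫 ^ (n + 1)`. -/
theorem patchIdeal_le_pow {l : ℕ} (hl : (l : 𝒪) ∈ maximalIdeal 𝒪) (n : ℕ) :
    Ideal.span (Set.range fun j : Fin r =>
      ((1 + MvPowerSeries.X j) ^ (l ^ n) - 1 : MvPowerSeries (Fin r) 𝒪)) ≤
      maximalIdeal (MvPowerSeries (Fin r) 𝒪) ^ (n + 1) := by
  rw [Ideal.span_le]
  rintro _ ⟨j, rfl⟩
  exact one_add_X_pow_sub_one_mem r hl n j

omit [IsLocalRing 𝒪] in
/-- The relation ideals are contained in the ideal of the variables. -/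
theorem patchIdeal_le_span_X (k : ℕ) :
    Ideal.span (Set.range fun j : Fin r =>
      ((1 + MvPowerSeries.X j) ^ k - 1 : MvPowerSeries (Fin r) 𝒪)) ≤
      Ideal.span (Set.range (MvPowerSeries.X : Fin r → MvPowerSeries (Fin r) 𝒪)) := by
  rw [Ideal.span_le]
  rintro _ ⟨j, rfl⟩
  have h2 : ((1 + MvPowerSeries.X j) ^ k - 1 : MvPowerSeries (Fin r) 𝒪) =
      MvPowerSeries.X j * ∑ i ∈ Finset.range k, (1 + MvPowerSeries.X j) ^ i := by
    rw [← mul_geom_sum]; ring
  show ((1 + MvPowerSeries.X j) ^ k - 1 : MvPowerSeries (Fin r) 𝒪) ∈ _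
  rw [h2]
  exact Ideal.mul_mem_right _ _ (Ideal.subset_span ⟨j, rfl⟩)

end relationIdeal

/-! ### The adic structure of `R` and `M` -/

section RM

variable {𝒪 : Type} [CommRing 𝒪] [IsDomain 𝒪] [IsDiscreteValuationRing 𝒪]
  [IsAdicComplete (maximalIdeal 𝒪) 𝒪] {r : ℕ} {R : Type} [CommRing R] [Algebra 𝒪 R]

/-- Images of the maximal ideal under two surjective algebra maps coincide. -/
theorem map_maximalIdeal_le_of_surjective
    (ψ ψ' : MvPowerSeries (Fin r) 𝒪 →ₐ[𝒪] R) (hψ : Function.Surjective ψ)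
    (hψ' : Function.Surjective ψ') :
    Ideal.map ψ'.toRingHom (maximalIdeal (MvPowerSeries (Fin r) 𝒪)) ≤
      Ideal.map ψ.toRingHom (maximalIdeal (MvPowerSeries (Fin r) 𝒪)) := by
  rw [Ideal.map_le_iff_le_comap]
  intro f hf
  rw [Ideal.mem_comap]
  obtain ⟨g, hg⟩ := hψ (ψ' f)
  by_cases hgm : g ∈ maximalIdeal (MvPowerSeries (Fin r) 𝒪)
  · have : ψ'.toRingHom f = ψ.toRingHom g := hg.symm
    rw [this]
    exact Ideal.mem_map_of_mem _ hgm
  · -- `g` is a unit, hence `ψ' f` is a unit, hence `R` is trivial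
    have hgu : IsUnit g := by
      rw [IsLocalRing.mem_maximalIdeal, mem_nonunits_iff, not_not] at hgm
      exact hgm
    have hu : IsUnit (ψ' f) := hg ▸ hgu.map ψ
    obtain ⟨u, hu'⟩ := hu
    obtain ⟨h, hh⟩ := hψ' (↑u⁻¹ : R)
    have h1 : ψ' (1 - f * h) = 0 := by
      rw [map_sub, map_one, map_mul, hh, ← hu', Units.mul_inv, sub_self]
    have h2 : IsUnit (1 - f * h) := by
      have hfh : f * h ∈ maximalIdeal (MvPowerSeries (Fin r) 𝒪) := Ideal.mul_mem_right _ _ hf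
      by_contra hnu
      have h3 : 1 - f * h ∈ maximalIdeal (MvPowerSeries (Fin r) 𝒪) := by
        rw [IsLocalRing.mem_maximalIdeal, mem_nonunits_iff]; exact hnu
      have h4 : (1 : MvPowerSeries (Fin r) 𝒪) ∈ maximalIdeal (MvPowerSeries (Fin r) 𝒪) := by
        have := Ideal.add_mem _ h3 hfh
        simpa using this
      exact (Ideal.ne_top_iff_one _).mp (maximalIdeal.isMaximal _).ne_top h4
    have h5 : IsUnit (0 : R) := h1 ▸ h2.map ψ'
    haveI : Subsingleton R := isUnit_zero_iff.mp h5 |> fun h => subsingleton_of_zero_eq_one h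
    rw [Subsingleton.elim (ψ'.toRingHom f) 0]
    exact Ideal.zero_mem _

theorem map_maximalIdeal_eq_of_surjective
    (ψ ψ' : MvPowerSeries (Fin r) 𝒪 →ₐ[𝒪] R) (hψ : Function.Surjective ψ)
    (hψ' : Function.Surjective ψ') :
    Ideal.map ψ'.toRingHom (maximalIdeal (MvPowerSeries (Fin r) 𝒪)) =
      Ideal.map ψ.toRingHom (maximalIdeal (MvPowerSeries (Fin r) 𝒪)) :=
  le_antisymm (map_maximalIdeal_le_of_surjective ψ ψ' hψ hψ')
    (map_maximalIdeal_le_of_surjective ψ' ψ hψ' hψ)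

variable (ψ₀ : MvPowerSeries (Fin r) 𝒪 →ₐ[𝒪] R) (hψ₀ : Function.Surjective ψ₀)

include hψ₀

theorem isNoetherianRing_of_psi : IsNoetherianRing R :=
  isNoetherianRing_of_surjective _ _ ψ₀.toRingHom hψ₀

theorem isAdicComplete_of_psi (M : Type) [AddCommGroup M] [Module R M] [Module.Finite R M] :
    IsAdicComplete (Ideal.map ψ₀.toRingHom (maximalIdeal (MvPowerSeries (Fin r) 𝒪))) M := by
  letI : Algebra (MvPowerSeries (Fin r) 𝒪) R := ψ₀.toRingHom.toAlgebra
  letI : Module (MvPowerSeries (Fin r) 𝒪) M := Module.compHom M ψ₀.toRingHom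
  haveI : IsScalarTower (MvPowerSeries (Fin r) 𝒪) R M :=
    IsScalarTower.of_algebraMap_smul (fun _ _ => rfl)
  haveI : Module.Finite (MvPowerSeries (Fin r) 𝒪) R :=
    Module.Finite.of_surjective (Algebra.linearMap (MvPowerSeries (Fin r) 𝒪) R) hψ₀
  haveI : Module.Finite (MvPowerSeries (Fin r) 𝒪) M := Module.Finite.trans R M
  haveI : IsAdicComplete (maximalIdeal (MvPowerSeries (Fin r) 𝒪)) (MvPowerSeries (Fin r) 𝒪) :=
    Fermat.Agent.S53.mvPowerSeries_isAdicComplete 𝒪 r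
  haveI : IsAdicComplete (maximalIdeal (MvPowerSeries (Fin r) 𝒪)) M :=
    IsAdicComplete.of_module_finite _ M
  exact
    { toIsHausdorff := (IsHausdorff.map_algebraMap_iff (S := R)).mpr inferInstance
      toIsPrecomplete := (IsPrecomplete.map_algebraMap_iff (S := R)).mpr inferInstance }

theorem finite_quotient_of_psi [Finite (ResidueField 𝒪)]
    (M : Type) [AddCommGroup M] [Module R M] [Module.Finite R M] (m : ℕ) :
    Finite (M ⧸ ((Ideal.map ψ₀.toRingHom (maximalIdeal (MvPowerSeries (Fin r) 𝒪))) ^ m • ⊤ :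
      Submodule R M)) := by
  haveI : IsNoetherianRing R := isNoetherianRing_of_psi ψ₀ hψ₀
  haveI := finite_quotient_maximalIdeal (𝒪 := 𝒪) r
  haveI : Finite (R ⧸ Ideal.map ψ₀.toRingHom (maximalIdeal (MvPowerSeries (Fin r) 𝒪))) :=
    Finite.of_surjective
      (Ideal.quotientMap (Ideal.map ψ₀.toRingHom (maximalIdeal (MvPowerSeries (Fin r) 𝒪)))
        ψ₀.toRingHom Ideal.le_comap_map)
      (Ideal.quotientMap_surjective hψ₀)
  haveI : Finite (R ⧸ (Ideal.map ψ₀.toRingHom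
      (maximalIdeal (MvPowerSeries (Fin r) 𝒪))) ^ m) :=
    Ideal.finite_quotient_pow (IsNoetherian.noetherian _) m
  exact Submodule.finite_quotient_smul _ Module.Finite.fg_top

end RM

end Fermat.Agent.S59
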