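/-
Cluster J (S59), work package J7 (assembly), part 1: homomorphisms out of a power series ring over a
complete discrete valuation ring: substitution `X_j ↦ a_j` (`a_j` in the maximal ideal), uniqueness
into a Hausdorff target, and lifting through a surjection.  Owner: helper60.
-/
import Fermat.Agent.S59.PatchAdic

set_option autoImplicit false
set_option linter.style.haveILetI false

namespace Fermat.Agent.S59

open IsLocalRing

section subst

variable {𝒪 : Type} [CommRing 𝒪]

/-- Two algebra homomorphisms out of a power series ring that agree on the variables agree, as soon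
as the target is Hausdorff for an ideal containing the images of the variables. -/
theorem algHom_mvPowerSeries_ext_of_isHausdorff {r : ℕ} {A : Type} [CommRing A] [Algebra 𝒪 A]
    (I : Ideal A) [IsHausdorff I A]
    (θ θ' : MvPowerSeries (Fin r) 𝒪 →ₐ[𝒪] A)
    (h : ∀ i, θ (MvPowerSeries.X i) = θ' (MvPowerSeries.X i))
    (hI : ∀ i, θ (MvPowerSeries.X i) ∈ I) : θ = θ' := by
  have key : ∀ n : ℕ, (Ideal.Quotient.mkₐ 𝒪 (I ^ n)).comp θ =
      (Ideal.Quotient.mkₐ 𝒪 (I ^ n)).comp θ' := by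
    intro n
    refine Fermat.Agent.S53.algHom_mvPowerSeries_ext _ _ (fun i => ?_) (fun i => ?_)
    · simp only [AlgHom.comp_apply, h i]
    · refine ⟨n, ?_⟩
      rw [AlgHom.comp_apply, ← map_pow]
      exact Ideal.Quotient.eq_zero_iff_mem.mpr (Ideal.pow_mem_pow (hI i) n)
  refine AlgHom.ext fun f => ?_
  rw [← sub_eq_zero]
  refine IsHausdorff.haus' (I := I) _ fun n => ?_
  rw [smul_eq_mul, Ideal.mul_top, SModEq.zero]
  have := congrArg (fun g : MvPowerSeries (Fin r) 𝒪 →ₐ[𝒪] A ⧸ I ^ n => g f) (key n)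
  simp only [AlgHom.comp_apply, Ideal.Quotient.mkₐ_eq_mk] at this
  rw [← Ideal.Quotient.eq_zero_iff_mem, map_sub, this, sub_self]

variable [IsDomain 𝒪] [IsDiscreteValuationRing 𝒪] [IsAdicComplete (maximalIdeal 𝒪) 𝒪]

/-- Substitution: for `a_j` in the maximal ideal of `𝒪⟦Y₁..Y_s⟧` there is an `𝒪`-algebra homomorphism
`𝒪⟦X₁..X_r⟧ → 𝒪⟦Y₁..Y_s⟧` with `X_j ↦ a_j`. -/
theorem exists_algHom_subst {r s : ℕ} (a : Fin r → MvPowerSeries (Fin s) 𝒪)
    (ha : ∀ j, a j ∈ maximalIdeal (MvPowerSeries (Fin s) 𝒪)) :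
    ∃ φ : MvPowerSeries (Fin r) 𝒪 →ₐ[𝒪] MvPowerSeries (Fin s) 𝒪,
      ∀ j, φ (MvPowerSeries.X j) = a j := by
  haveI hc : IsAdicComplete (maximalIdeal (MvPowerSeries (Fin s) 𝒪))
      (MvPowerSeries (Fin s) 𝒪) := Fermat.Agent.S53.mvPowerSeries_isAdicComplete 𝒪 s
  set 𝔫 := maximalIdeal (MvPowerSeries (Fin s) 𝒪) with h𝔫
  have hnil : ∀ (n : ℕ) (j : Fin r), IsNilpotent (Ideal.Quotient.mk (𝔫 ^ n) (a j)) := by
    intro n j
    refine ⟨n, ?_⟩
    rw [← map_pow]
    exact Ideal.Quotient.eq_zero_iff_mem.mpr (Ideal.pow_mem_pow (ha j) n)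
  choose f hf using fun n : ℕ =>
    Fermat.Agent.S53.exists_algHom_mvPowerSeries (𝒪 := 𝒪)
      (fun j : Fin r => Ideal.Quotient.mk (𝔫 ^ n) (a j)) (hnil n)
  have hcompat : ∀ {m n : ℕ} (hle : m ≤ n),
      (Ideal.Quotient.factorₐ 𝒪 (Ideal.pow_le_pow_right hle)).comp (f n) = f m := by
    intro m n hle
    refine Fermat.Agent.S53.algHom_mvPowerSeries_ext _ _ (fun i => ?_) (fun i => ?_)
    · rw [AlgHom.comp_apply, hf n i, hf m i]
      rfl
    · rw [AlgHom.comp_apply, hf n i]
      exact hnil m i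
  refine ⟨IsAdicComplete.liftAlgHom 𝔫 f hcompat, fun j => ?_⟩
  rw [← sub_eq_zero]
  refine IsHausdorff.haus' (I := 𝔫) _ fun n => ?_
  rw [smul_eq_mul, Ideal.mul_top, SModEq.zero, ← Ideal.Quotient.eq_zero_iff_mem, map_sub,
    sub_eq_zero]
  have h1 : Ideal.Quotient.mk (𝔫 ^ n) (IsAdicComplete.liftAlgHom 𝔫 f hcompat (MvPowerSeries.X j)) =
      f n (MvPowerSeries.X j) := IsAdicComplete.mk_liftAlgHom 𝔫 f hcompat n _
  rw [h1, hf n j]

/-- Lifting: an algebra homomorphism from a power series ring to a quotient of a power series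
ring lifts along the quotient map. -/
theorem exists_algHom_lift [Finite (ResidueField 𝒪)] {r s : ℕ} {A : Type} [CommRing A]
    [Algebra 𝒪 A]
    (γ : MvPowerSeries (Fin s) 𝒪 →ₐ[𝒪] A) (hγ : Function.Surjective γ)
    (ev : MvPowerSeries (Fin r) 𝒪 →ₐ[𝒪] A) :
    ∃ φ : MvPowerSeries (Fin r) 𝒪 →ₐ[𝒪] MvPowerSeries (Fin s) 𝒪, γ.comp φ = ev := by
  by_cases htriv : Subsingleton A
  · obtain ⟨φ, -⟩ := exists_algHom_subst (𝒪 := 𝒪) (r := r) (s := s) (fun _ => 0)
      (fun _ => Ideal.zero_mem _)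
    exact ⟨φ, AlgHom.ext fun f => Subsingleton.elim _ _⟩
  rw [not_subsingleton_iff_nontrivial] at htriv
  choose a ha using fun j : Fin r => hγ (ev (MvPowerSeries.X j))
  -- `γ` is a local homomorphism
  have hloc : ∀ x : MvPowerSeries (Fin s) 𝒪, IsUnit (γ x) → IsUnit x := by
    intro x hx
    by_contra hxu
    have hxm : x ∈ maximalIdeal (MvPowerSeries (Fin s) 𝒪) := hxu
    obtain ⟨y, hy⟩ := hx.exists_right_inv
    obtain ⟨y', rfl⟩ := hγ y
    have h1 : γ (x * y' - 1) = 0 := by rw [map_sub, map_mul, hy, map_one, sub_self]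
    have h2 : IsUnit (x * y' - 1) := by
      have hmem : x * y' ∈ maximalIdeal (MvPowerSeries (Fin s) 𝒪) :=
        Ideal.mul_mem_right _ _ hxm
      have : IsUnit (1 - x * y') := by
        by_contra hcon
        have hcon' : 1 - x * y' ∈ maximalIdeal (MvPowerSeries (Fin s) 𝒪) := hcon
        have hone : (1 : MvPowerSeries (Fin s) 𝒪) ∈ maximalIdeal (MvPowerSeries (Fin s) 𝒪) := by
          have := Ideal.add_mem _ hcon' hmem
          simpa using this
        exact (Ideal.ne_top_iff_one _).mp (IsLocalRing.maximalIdeal.isMaximal _).ne_top hone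
      have hneg : x * y' - 1 = -(1 - x * y') := by ring
      rw [hneg]
      exact this.neg
    have h3 : IsUnit (γ (x * y' - 1)) := h2.map γ
    rw [h1] at h3
    exact not_isUnit_zero h3
  -- the images of the variables are not units
  have hevX : ∀ j, ¬ IsUnit (ev (MvPowerSeries.X j)) := by
    intro j hu
    -- the residue class of the unit lifts to a unit constant
    obtain ⟨b, hb⟩ := hγ (ev (MvPowerSeries.X j))
    have hbu : IsUnit b := hloc b (hb ▸ hu)
    set c₀ := MvPowerSeries.constantCoeff b with hc₀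
    have hc₀u : IsUnit c₀ := MvPowerSeries.isUnit_iff_constantCoeff.mp hbu
    -- `X_j - c₀` is a unit
    have hXu : IsUnit (MvPowerSeries.X j - MvPowerSeries.C c₀ : MvPowerSeries (Fin r) 𝒪) := by
      rw [MvPowerSeries.isUnit_iff_constantCoeff, map_sub, MvPowerSeries.constantCoeff_X,
        MvPowerSeries.constantCoeff_C, zero_sub]
      exact hc₀u.neg
    have h1 : IsUnit (ev (MvPowerSeries.X j - MvPowerSeries.C c₀)) := hXu.map ev
    have h2 : ev (MvPowerSeries.X j - MvPowerSeries.C c₀) = γ (b - MvPowerSeries.C c₀) := by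
      rw [map_sub, map_sub, hb, MvPowerSeries.c_eq_algebraMap, AlgHom.commutes,
        MvPowerSeries.c_eq_algebraMap, AlgHom.commutes]
    rw [h2] at h1
    have h3 : IsUnit (b - MvPowerSeries.C c₀) := hloc _ h1
    rw [MvPowerSeries.isUnit_iff_constantCoeff, map_sub, MvPowerSeries.constantCoeff_C,
      hc₀, sub_self] at h3
    exact not_isUnit_zero h3
  have ham : ∀ j, a j ∈ maximalIdeal (MvPowerSeries (Fin s) 𝒪) := by
    intro j
    by_contra hcon
    have hu : IsUnit (a j) := by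
      rw [IsLocalRing.mem_maximalIdeal, mem_nonunits_iff, not_not] at hcon
      exact hcon
    exact hevX j (ha j ▸ hu.map γ)
  obtain ⟨φ, hφ⟩ := exists_algHom_subst a ham
  refine ⟨φ, ?_⟩
  haveI : IsNoetherianRing A := isNoetherianRing_of_psi γ hγ
  haveI : IsAdicComplete (Ideal.map γ.toRingHom (maximalIdeal (MvPowerSeries (Fin s) 𝒪))) A :=
    isAdicComplete_of_psi γ hγ A
  refine algHom_mvPowerSeries_ext_of_isHausdorff
    (Ideal.map γ.toRingHom (maximalIdeal (MvPowerSeries (Fin s) 𝒪))) _ _ (fun i => ?_)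
    (fun i => ?_)
  · rw [AlgHom.comp_apply, hφ i, ha i]
  · rw [AlgHom.comp_apply, hφ i]
    exact Ideal.mem_map_of_mem _ (ham i)

end subst

end Fermat.Agent.S59
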