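/-
Cluster J (S59), endgame: from `R ≅ T` and the `p`-adic representation of the curve to an eigenform.
Architect: helper60.  Blueprint: `NOTES/blueprint-J-S59.md`.

Leaves (exact statements in the imported files):
 * (E1) `Endgame/Eigenform.lean` `exists_eigenform_of_heckeAlgebra_hom`
 * (E2) `Endgame/PStab.lean`     `exists_pStabilisation`
 * (E3) `Endgame/Point.lean`     `exists_heckeAlgebra_hom_of_bijective`
Assembly (sorry-free modulo the leaves): `isModularModelOfLevel_of_heckeAlgebra_hom`.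
-/
import Fermat.Agent.S59.Endgame.Eigenform
import Fermat.Agent.S59.Endgame.PStab
import Fermat.Agent.S59.Endgame.Point

set_option autoImplicit false
set_option linter.style.haveILetI false

open Polynomial

namespace Fermat.Agent.S59

open CuspForm IsLocalRing

open WeierstrassCurve in
/-- Assembly of (E1), (E2): a ring homomorphism from the Hecke algebra of level `N` away from
`S ⊆ {p} ∪ {ℓ ∣ N}` to a domain of characteristic zero with `χ(T_ℓ) = a_ℓ(W)` makes `W` modular of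
level `N` (if `p ∣ N`) or `N p` (if `p ∤ N`). -/
theorem isModularModelOfLevel_of_heckeAlgebra_hom (W : WeierstrassCurve ℤ) {p : ℕ}
    (hp : p.Prime) {N : ℕ} [NeZero N] (S : Set ℕ) (hS : ∀ ℓ ∈ S, ℓ ∣ N ∨ ℓ = p)
    {A : Type} [CommRing A] [IsDomain A] [CharZero A]
    (χ : heckeAlgebra N 2 S →+* A)
    (hχ : ∀ (ℓ : ℕ) (hℓ : ℓ.Prime) (hℓN : ¬ ℓ ∣ N) (hℓS : ℓ ∉ S), W.IsGoodPrimeFor ℓ →
      χ (heckeAlgebra.T hℓ hℓN hℓS) = ((W.apOfModel ℓ : ℤ) : A)) :
    W.IsModularModelOfLevel (if p ∣ N then N else N * p) := by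
  obtain ⟨f, hf, hfa⟩ := exists_eigenform_of_heckeAlgebra_hom S χ
  have key : ∀ ℓ : ℕ, ℓ.Prime → W.IsGoodPrimeFor ℓ → ¬ ℓ ∣ N → ℓ ≠ p →
      ModularFormClass.qCoeff f ℓ = (W.apOfModel ℓ : ℂ) := by
    intro ℓ hℓ hgood hℓN hℓp
    have hℓS : ℓ ∉ S := fun h => (hS ℓ h).elim hℓN hℓp
    exact hfa ℓ hℓ hℓN hℓS _ (hχ ℓ hℓ hℓN hℓS hgood)
  split_ifs with hpN
  · refine ⟨f, hf, fun ℓ hℓ hgood hℓN => key ℓ hℓ hgood hℓN ?_⟩
    rintro rfl
    exact hℓN hpN
  · obtain ⟨g, hg, hgf⟩ := exists_pStabilisation hp hpN f hf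
    refine ⟨g, hg, fun ℓ hℓ hgood hℓN => ?_⟩
    have hℓp : ℓ ≠ p := by
      rintro rfl
      exact hℓN (Dvd.intro_left _ rfl)
    rw [hgf ℓ hℓ hℓp]
    exact key ℓ hℓ hgood (fun h => hℓN (Dvd.dvd.mul_right h _)) hℓp

end Fermat.Agent.S59
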