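/-
Cluster J (S59), work package J5: the PATCHING THEOREM.
A `PatchingDatum` (levels for all `n`, relation ideals `((1+X_j)^(l^n) - 1)`) over a complete discrete
valuation ring with finite residue field in which `l` is not a unit yields a `PatchingLevel` with trivial
relation ideal.  Owner: helper60.  See NOTES/blueprint-J-S59.md.

Method: ultraproduct of the level modules modulo null sequences; the structure maps are the
pointwise ultralimits of the structure maps of the levels.
-/
import Fermat.Agent.S59.PatchNull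

set_option autoImplicit false
set_option linter.style.haveILetI false

namespace Fermat.Agent.S59

open IsLocalRing Filter

theorem exists_patchingLevel_bot
    {𝒪 : Type} [CommRing 𝒪] [IsDomain 𝒪] [IsDiscreteValuationRing 𝒪]
    [IsAdicComplete (IsLocalRing.maximalIdeal 𝒪) 𝒪] [Finite (IsLocalRing.ResidueField 𝒪)]
    {l r : ℕ} (hl : (l : 𝒪) ∈ IsLocalRing.maximalIdeal 𝒪)
    {R : Type} [CommRing R] [Algebra 𝒪 R] {M : Type} [AddCommGroup M] [Module R M]
    (D : Algebra.PatchingDatum 𝒪 l r R M) : Nonempty (Algebra.PatchingLevel 𝒪 r R M ⊥) := by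
  classical
  -- the power series ring
  haveI hΛc : IsAdicComplete (maximalIdeal (MvPowerSeries (Fin r) 𝒪))
      (MvPowerSeries (Fin r) 𝒪) := Fermat.Agent.S53.mvPowerSeries_isAdicComplete 𝒪 r
  haveI hΛf : Finite (MvPowerSeries (Fin r) 𝒪 ⧸ maximalIdeal (MvPowerSeries (Fin r) 𝒪)) :=
    finite_quotient_maximalIdeal r
  have hΛfin := finite_quotient_maximalIdeal_pow_smul_top (𝒪 := 𝒪) r
  -- the rank
  have hJX : ∀ n, Ideal.span (Set.range fun j : Fin r =>
      ((1 + MvPowerSeries.X j) ^ (l ^ n) - 1 : MvPowerSeries (Fin r) 𝒪)) ≤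
      Ideal.span (Set.range (MvPowerSeries.X : Fin r → MvPowerSeries (Fin r) 𝒪)) :=
    fun n => patchIdeal_le_span_X r (l ^ n)
  obtain ⟨d, hd0⟩ : ∃ d, (D.level 0).d = d := ⟨_, rfl⟩
  have hd : ∀ n, (D.level n).d = d := fun n =>
    (level_d_eq (D.level n) (D.level 0) (hJX n) (hJX 0)).trans hd0
  -- `R` and `M`
  have hψ₀ := (D.level 0).ψ_surjective
  haveI hMfinite : Module.Finite R M := by
    refine Module.Finite.of_surjective
      (Fintype.linearCombination R (fun i : Fin d => (D.level 0).π
        ((D.level 0).b (Fin.cast (hd 0).symm i)))) ?_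
    intro y
    obtain ⟨c, hc⟩ := (level_bijective (D.level 0) (hd 0) (hJX 0)).2 y
    refine ⟨fun i => algebraMap 𝒪 R (c i), ?_⟩
    rw [Fintype.linearCombination_apply]
    exact hc
  haveI hRc : IsAdicComplete (Ideal.map (D.level 0).ψ.toRingHom
      (maximalIdeal (MvPowerSeries (Fin r) 𝒪))) R := isAdicComplete_of_psi _ hψ₀ R
  haveI hMc : IsAdicComplete (Ideal.map (D.level 0).ψ.toRingHom
      (maximalIdeal (MvPowerSeries (Fin r) 𝒪))) M := isAdicComplete_of_psi _ hψ₀ M
  have hRfin := finite_quotient_of_psi (D.level 0).ψ hψ₀ R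
  have hMfin := finite_quotient_of_psi (D.level 0).ψ hψ₀ M
  -- the limit maps `Φ`, `Ψ`
  obtain ⟨Φ, hΦ⟩ := exists_algHom_isUlim (maximalIdeal (MvPowerSeries (Fin r) 𝒪)) hΛfin
    (fun n => (D.level n).φ)
  obtain ⟨Ψ, hΨ⟩ := exists_algHom_isUlim (Ideal.map (D.level 0).ψ.toRingHom
      (maximalIdeal (MvPowerSeries (Fin r) 𝒪))) hRfin (fun n => (D.level n).ψ)
  -- `ψ_n` is uniformly continuous
  have hR1 : ∀ (n m : ℕ) (g : MvPowerSeries (Fin r) 𝒪),
      g ∈ maximalIdeal (MvPowerSeries (Fin r) 𝒪) ^ m →
      (D.level n).ψ g ∈ (Ideal.map (D.level 0).ψ.toRingHom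
        (maximalIdeal (MvPowerSeries (Fin r) 𝒪))) ^ m := by
    intro n m g hg
    have h1 : (D.level n).ψ.toRingHom g ∈ Ideal.map (D.level n).ψ.toRingHom
        (maximalIdeal (MvPowerSeries (Fin r) 𝒪) ^ m) := Ideal.mem_map_of_mem _ hg
    rw [Ideal.map_pow, map_maximalIdeal_eq_of_surjective (D.level 0).ψ (D.level n).ψ hψ₀
      (D.level n).ψ_surjective] at h1
    exact h1
  have hR1' : ∀ (n m : ℕ) (g : MvPowerSeries (Fin r) 𝒪),
      g ∈ maximalIdeal (MvPowerSeries (Fin r) 𝒪) ^ m →
      (D.level n).ψ g ∈ ((Ideal.map (D.level 0).ψ.toRingHom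
        (maximalIdeal (MvPowerSeries (Fin r) 𝒪))) ^ m • ⊤ : Submodule R R) := by
    intro n m g hg
    rw [smul_eq_mul, Ideal.mul_top]
    exact hR1 n m g hg
  -- `π_n` is uniformly continuous
  have hR2 : ∀ (n m : ℕ) (y : (D.level n).N),
      y ∈ (Ideal.map (D.level n).φ (maximalIdeal (MvPowerSeries (Fin r) 𝒪) ^ m) • ⊤ :
        Submodule (MvPowerSeries (Fin r) 𝒪) (D.level n).N) →
      (D.level n).π y ∈ ((Ideal.map (D.level 0).ψ.toRingHom
        (maximalIdeal (MvPowerSeries (Fin r) 𝒪))) ^ m • ⊤ : Submodule R M) := by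
    intro n m y hy
    refine Submodule.smul_induction_on hy ?_ ?_
    · intro a ha z _
      rw [(D.level n).π_smul]
      exact Submodule.smul_mem_smul
        (hR1 n m a (map_maximalIdeal_pow_le (D.level n).φ m ha)) Submodule.mem_top
    · intro y z hy hz
      rw [map_add]
      exact Submodule.add_mem _ hy hz
  -- the limit of the `π_n`
  obtain ⟨T₀, hT₀⟩ := exists_semilinear_isUlim (P := PatchProd D) (Ideal.map (D.level 0).ψ.toRingHom
      (maximalIdeal (MvPowerSeries (Fin r) 𝒪))) hMfin Ψ.toRingHom
    (fun n x => (D.level n).π (x n)) (fun n f => (D.level n).ψ f)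
    (fun n x y => by simp only [Pi.add_apply, map_add])
    (fun n f x => by simp only [Pi.smul_apply, (D.level n).π_smul])
    (fun f => hΨ f)
  have hTZ : PatchNull D ≤ LinearMap.ker T₀ := by
    intro x hx
    rw [LinearMap.mem_ker]
    refine (hT₀ x).unique (isUlim_zero_of_eventually_mem fun m => ?_)
    filter_upwards [hx m] with n hn
    exact hR2 n m _ hn
  -- the basis of the limit
  set E : Fin d → PatchProd D := fun i n => (D.level n).b (Fin.cast (hd n).symm i) with hE
  have hpvec : ∀ (n : ℕ) (c : Fin d → MvPowerSeries (Fin r) 𝒪),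
      pvec (D.level n) (hd n) c = ∑ i, (D.level n).φ (c i) • E i n := fun n c => rfl
  have hK : ∀ c : Fin d → MvPowerSeries (Fin r) 𝒪,
      ∑ i, Φ (c i) • (Submodule.Quotient.mk (E i) : PatchProd D ⧸ PatchNull D) =
        Submodule.Quotient.mk (fun n => pvec (D.level n) (hd n) c) := by
    intro c
    have h1 : ∑ i, Φ (c i) • (Submodule.Quotient.mk (E i) : PatchProd D ⧸ PatchNull D) =
        Submodule.Quotient.mk (∑ i, Φ (c i) • E i) := by
      exact (map_sum (PatchNull D).mkQ (fun i => Φ (c i) • E i) Finset.univ).symm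
    rw [h1, Submodule.Quotient.eq]
    have h2 : (∑ i, Φ (c i) • E i) - (fun n => pvec (D.level n) (hd n) c) =
        ∑ i, (fun n => (Φ (c i) - (D.level n).φ (c i)) • E i n) := by
      funext n
      rw [Pi.sub_apply, Finset.sum_apply, Finset.sum_apply, hpvec, ← Finset.sum_sub_distrib]
      refine Finset.sum_congr rfl fun i _ => ?_
      rw [Pi.smul_apply, sub_smul]
    rw [h2]
    refine Submodule.sum_mem _ fun i _ => ?_
    refine smul_mem_patchNull D hd (fun n => Φ (c i) - (D.level n).φ (c i)) ?_ (E i)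
    have := (isUlim_const (I := maximalIdeal (MvPowerSeries (Fin r) 𝒪)) (Φ (c i))).sub (hΦ (c i))
    simpa using this
  -- spanning
  have hspan : ∀ x : PatchProd D ⧸ PatchNull D, ∃ c : Fin d → MvPowerSeries (Fin r) 𝒪,
      x = ∑ i, Φ (c i) • (Submodule.Quotient.mk (E i) : PatchProd D ⧸ PatchNull D) := by
    intro x
    obtain ⟨y, rfl⟩ := Submodule.Quotient.mk_surjective _ x
    choose cn hcn using fun n => pvec_surjective (D.level n) (hd n) (y n)
    choose c hc using fun i => exists_isUlim (I := maximalIdeal (MvPowerSeries (Fin r) 𝒪))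
      hΛfin (fun n => cn n i)
    refine ⟨c, ?_⟩
    rw [hK, Submodule.Quotient.eq]
    have h2 : y - (fun n => pvec (D.level n) (hd n) c) =
        fun n => pvec (D.level n) (hd n) (cn n - c) := by
      funext n
      rw [Pi.sub_apply, pvec_sub, hcn]
    rw [h2]
    refine pvec_mem_patchNull D hd (fun n => cn n - c) fun i => ?_
    have := (hc i).sub (isUlim_const (I := maximalIdeal (MvPowerSeries (Fin r) 𝒪)) (c i))
    simpa using this
  -- `Ψ ∘ Φ` kills the variables
  have hΨΦ : ∀ i : Fin r, Ψ (Φ (MvPowerSeries.X i)) = 0 := by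
    intro i
    refine (hΨ (Φ (MvPowerSeries.X i))).unique (isUlim_zero_of_eventually_mem fun m => ?_)
    filter_upwards [(isUlim_ring_iff.mp (hΦ (MvPowerSeries.X i))) m] with n hn
    have h1 : (D.level n).ψ (Φ (MvPowerSeries.X i)) =
        - (D.level n).ψ ((D.level n).φ (MvPowerSeries.X i) - Φ (MvPowerSeries.X i)) := by
      rw [map_sub, (D.level n).ψ_φ_X i, zero_sub, neg_neg]
    rw [h1]
    exact Submodule.neg_mem _ (hR1' n m _ hn)
  -- the limit level
  set πq : (PatchProd D ⧸ PatchNull D) →ₛₗ[Ψ.toRingHom] M := (PatchNull D).liftQ T₀ hTZ with hπq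
  have hπq_mk : ∀ x : PatchProd D, πq (Submodule.Quotient.mk x) = T₀ x := fun x => rfl
  have hπsurj : Function.Surjective πq := by
    intro y
    choose xn hxn using fun n => (D.level n).π_surjective y
    refine ⟨Submodule.Quotient.mk xn, ?_⟩
    rw [hπq_mk]
    refine (hT₀ xn).unique ?_
    simp only [hxn]
    exact isUlim_const y
  have hπsum : ∀ c : Fin d → MvPowerSeries (Fin r) 𝒪,
      πq (∑ i, Φ (c i) • (Submodule.Quotient.mk (E i) : PatchProd D ⧸ PatchNull D)) =
        ∑ i, algebraMap 𝒪 R (MvPowerSeries.constantCoeff (c i)) •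
          πq (Submodule.Quotient.mk (E i)) := by
    intro c
    rw [map_sum]
    refine Finset.sum_congr rfl fun i _ => ?_
    rw [map_smulₛₗ]
    congr 1
    exact algHom_eq_constantCoeff_of_X (Ψ.comp Φ) hΨΦ (c i)
  -- linear independence of the images of the basis
  have hinj : ∀ a : Fin d → 𝒪,
      (∑ i, algebraMap 𝒪 R (a i) • πq (Submodule.Quotient.mk (E i))) = 0 → a = 0 := by
    letI : Module 𝒪 M := Module.compHom M (algebraMap 𝒪 R)
    set W : (Fin d → 𝒪) →ₗ[𝒪] M :=
      Fintype.linearCombination 𝒪 (fun i => πq (Submodule.Quotient.mk (E i))) with hW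
    have hWs : Function.Surjective W := by
      intro y
      obtain ⟨x, rfl⟩ := hπsurj y
      obtain ⟨c, rfl⟩ := hspan x
      refine ⟨fun i => MvPowerSeries.constantCoeff (c i), ?_⟩
      rw [hπsum, hW, Fintype.linearCombination_apply]
      rfl
    have he₀ : Function.Bijective (Fintype.linearCombination 𝒪
        (fun i : Fin d => (D.level 0).π ((D.level 0).b (Fin.cast (hd 0).symm i)))) :=
      level_bijective (D.level 0) (hd 0) (hJX 0)
    set e₀ := LinearEquiv.ofBijective _ he₀ with he₀def
    have hT : Function.Surjective (e₀.symm.toLinearMap ∘ₗ W) := by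
      rw [LinearMap.coe_comp]
      exact e₀.symm.surjective.comp hWs
    have hTi := OrzechProperty.injective_of_surjective_endomorphism _ hT
    have hWi : Function.Injective W := by
      intro a b hab
      apply hTi
      simp only [LinearMap.coe_comp, Function.comp_apply, hab]
    intro a ha
    apply hWi
    rw [map_zero, hW, Fintype.linearCombination_apply]
    exact ha
  refine ⟨{
    N := PatchProd D ⧸ PatchNull D
    φ := Φ
    ψ := Ψ
    ψ_surjective := ?_
    ψ_φ_X := hΨΦ
    π := πq.toAddMonoidHom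
    π_smul := fun f x => map_smulₛₗ πq f x
    π_surjective := hπsurj
    ker_π := ?_
    d := d
    b := fun i => Submodule.Quotient.mk (E i)
    b_span := hspan
    b_rel := ?_ }⟩
  · -- surjectivity of `Ψ`
    intro y
    choose fn hfn using fun n => (D.level n).ψ_surjective y
    obtain ⟨f, hf⟩ := exists_isUlim (I := maximalIdeal (MvPowerSeries (Fin r) 𝒪)) hΛfin fn
    refine ⟨f, (hΨ f).unique fun m => ?_⟩
    filter_upwards [(isUlim_ring_iff.mp hf) m] with n hn
    have h1 : (D.level n).ψ f - y = - (D.level n).ψ (fn n - f) := by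
      rw [map_sub, hfn]; ring
    rw [h1]
    exact Submodule.neg_mem _ (hR1' n m _ hn)
  · -- the kernel of `π`
    intro x
    constructor
    · intro hx
      obtain ⟨c, rfl⟩ := hspan x
      have h1 : πq (∑ i, Φ (c i) • (Submodule.Quotient.mk (E i) :
          PatchProd D ⧸ PatchNull D)) = 0 := hx
      rw [hπsum] at h1
      have h2 := hinj (fun i => MvPowerSeries.constantCoeff (c i)) h1
      refine Submodule.sum_mem _ fun i _ => ?_
      refine Submodule.smul_mem_smul ?_ Submodule.mem_top
      have h3 : c i ∈ Ideal.span (Set.range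
          (MvPowerSeries.X : Fin r → MvPowerSeries (Fin r) 𝒪)) := by
        have h4 := sub_C_constantCoeff_mem_span_X (c i)
        have h5 : MvPowerSeries.constantCoeff (c i) = 0 := congrFun h2 i
        rwa [h5, map_zero, sub_zero] at h4
      have h6 : Φ (c i) ∈ Ideal.map Φ (Ideal.span (Set.range
          (MvPowerSeries.X : Fin r → MvPowerSeries (Fin r) 𝒪))) := Ideal.mem_map_of_mem _ h3
      rw [Ideal.map_span, ← Set.range_comp] at h6
      exact h6
    · intro hx
      have hker : ∀ a ∈ Ideal.span (Set.range fun i : Fin r => Φ (MvPowerSeries.X i)),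
          Ψ a = 0 := by
        have hle : Ideal.span (Set.range fun i : Fin r => Φ (MvPowerSeries.X i)) ≤
            RingHom.ker Ψ.toRingHom := by
          rw [Ideal.span_le]
          rintro _ ⟨i, rfl⟩
          exact hΨΦ i
        exact fun a ha => hle ha
      refine Submodule.smul_induction_on hx ?_ ?_
      · intro a ha z _
        show πq (a • z) = 0
        rw [map_smulₛₗ]
        have : Ψ.toRingHom a = 0 := hker a ha
        rw [this, zero_smul]
      · intro y z hy hz
        show πq (y + z) = 0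
        rw [map_add]
        have hy' : πq y = 0 := hy
        have hz' : πq z = 0 := hz
        rw [hy', hz', add_zero]
  · -- the relations
    intro c
    rw [hK, Submodule.Quotient.mk_eq_zero]
    constructor
    · intro h i
      rw [eq_zero_of_pvec_mem_patchNull D hd hl c h]
      exact Ideal.zero_mem _
    · intro h
      have hc : c = 0 := funext fun i => (Submodule.mem_bot _).mp (h i)
      rw [hc]
      simp only [pvec_zero]
      exact Submodule.zero_mem _

end Fermat.Agent.S59
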