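/-
Cluster J (S59), work package J5 (patching theorem), part 1: ultralimits of sequences in
adically complete modules with finite quotients.  Owner: helper60.
-/
import Mathlib

set_option autoImplicit false
set_option linter.style.haveILetI false

namespace Fermat.Agent.S59

open Filter

/-- The fixed non-principal ultrafilter on `ℕ` used for patching. -/
noncomputable def patchU : Ultrafilter ℕ := Filter.hyperfilter ℕ

theorem patchU_le_atTop : (patchU : Filter ℕ) ≤ atTop := Nat.hyperfilter_le_atTop

theorem eventually_patchU_ge (m : ℕ) : ∀ᶠ n in (patchU : Filter ℕ), m ≤ n :=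
  (eventually_ge_atTop m).filter_mono patchU_le_atTop

/-- A sequence in a finite type is constant along the ultrafilter. -/
theorem exists_eventually_eq_of_finite {F : Type*} [Finite F] (a : ℕ → F) :
    ∃ c : F, ∀ᶠ n in (patchU : Filter ℕ), a n = c := by
  obtain ⟨c, hc⟩ := Ultrafilter.eq_pure_of_finite (patchU.map a)
  refine ⟨c, ?_⟩
  have h1 : ({c} : Set F) ∈ ((patchU.map a : Ultrafilter F) : Filter F) := by
    rw [hc]; exact mem_pure.mpr rfl
  exact h1

section adic

variable {A : Type*} [CommRing A] (I : Ideal A) {V : Type*} [AddCommGroup V] [Module A V]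

/-- `L` is a limit of the sequence `a` along `patchU` for the `I`-adic topology. -/
def IsUlim (a : ℕ → V) (L : V) : Prop :=
  ∀ m : ℕ, ∀ᶠ n in (patchU : Filter ℕ), a n - L ∈ (I ^ m • ⊤ : Submodule A V)

variable {I}

theorem IsUlim.unique [IsHausdorff I V] {a : ℕ → V} {L L' : V}
    (h : IsUlim I a L) (h' : IsUlim I a L') : L = L' := by
  rw [← sub_eq_zero]
  apply IsHausdorff.haus (I := I) ‹_›
  intro m
  rw [SModEq.zero]
  obtain ⟨n, hn, hn'⟩ := ((h m).and (h' m)).exists
  have : L - L' = (a n - L') - (a n - L) := by abel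
  rw [this]
  exact Submodule.sub_mem _ hn' hn

theorem isUlim_const (x : V) : IsUlim I (fun _ => x) x := fun m =>
  Eventually.of_forall fun _ => by simp

theorem IsUlim.add {a b : ℕ → V} {L L' : V} (h : IsUlim I a L) (h' : IsUlim I b L') :
    IsUlim I (fun n => a n + b n) (L + L') := fun m => by
  filter_upwards [h m, h' m] with n hn hn'
  have : a n + b n - (L + L') = (a n - L) + (b n - L') := by abel
  rw [this]
  exact Submodule.add_mem _ hn hn'

theorem IsUlim.neg {a : ℕ → V} {L : V} (h : IsUlim I a L) :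
    IsUlim I (fun n => - a n) (- L) := fun m => by
  filter_upwards [h m] with n hn
  have : - a n - - L = - (a n - L) := by abel
  rw [this]
  exact Submodule.neg_mem _ hn

theorem IsUlim.sub {a b : ℕ → V} {L L' : V} (h : IsUlim I a L) (h' : IsUlim I b L') :
    IsUlim I (fun n => a n - b n) (L - L') := fun m => by
  filter_upwards [h m, h' m] with n hn hn'
  have : a n - b n - (L - L') = (a n - L) - (b n - L') := by abel
  rw [this]
  exact Submodule.sub_mem _ hn hn'

theorem IsUlim.sum {ι : Type*} (s : Finset ι) {a : ι → ℕ → V} {L : ι → V}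
    (h : ∀ i ∈ s, IsUlim I (a i) (L i)) :
    IsUlim I (fun n => ∑ i ∈ s, a i n) (∑ i ∈ s, L i) := by
  classical
  induction s using Finset.induction_on with
  | empty => simpa using isUlim_const (I := I) (0 : V)
  | insert i s hi ih =>
    simp only [Finset.sum_insert hi]
    exact (h i (Finset.mem_insert_self i s)).add
      (ih fun j hj => h j (Finset.mem_insert_of_mem hj))

/-- Sequences that are eventually congruent modulo every power have the same limits. -/
theorem IsUlim.congr {a b : ℕ → V} {L : V} (h : IsUlim I a L)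
    (hab : ∀ m : ℕ, ∀ᶠ n in (patchU : Filter ℕ), b n - a n ∈ (I ^ m • ⊤ : Submodule A V)) :
    IsUlim I b L := fun m => by
  filter_upwards [h m, hab m] with n hn hn'
  have : b n - L = (b n - a n) + (a n - L) := by abel
  rw [this]
  exact Submodule.add_mem _ hn' hn

/-- A sequence that is eventually in every power tends to zero. -/
theorem isUlim_zero_of_eventually_mem {a : ℕ → V}
    (h : ∀ m : ℕ, ∀ᶠ n in (patchU : Filter ℕ), a n ∈ (I ^ m • ⊤ : Submodule A V)) :
    IsUlim I a 0 := fun m => by
  filter_upwards [h m] with n hn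
  simpa using hn

theorem IsUlim.eventually_mem {a : ℕ → V} (h : IsUlim I a 0) (m : ℕ) :
    ∀ᶠ n in (patchU : Filter ℕ), a n ∈ (I ^ m • ⊤ : Submodule A V) := by
  filter_upwards [h m] with n hn
  simpa using hn

/-- Continuity of the scalar action: limits of products. -/
theorem IsUlim.smul {f : ℕ → A} {c : A} {a : ℕ → V} {L : V}
    (hf : IsUlim I f c) (ha : IsUlim I a L) : IsUlim I (fun n => f n • a n) (c • L) := fun m => by
  filter_upwards [hf m, ha m] with n hn hn'
  have h1 : f n • a n - c • L = f n • (a n - L) + (f n - c) • L := by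
    rw [smul_sub, sub_smul]; abel
  rw [h1]
  refine Submodule.add_mem _ (Submodule.smul_mem _ _ hn') ?_
  have h2 : f n - c ∈ I ^ m := by
    have := hn
    rwa [smul_eq_mul, Ideal.mul_top] at this
  exact Submodule.smul_mem_smul h2 Submodule.mem_top

theorem IsUlim.mul {f g : ℕ → A} {c c' : A}
    (hf : IsUlim I f c) (hg : IsUlim I g c') : IsUlim I (fun n => f n * g n) (c * c') :=
  hf.smul hg

theorem IsUlim.mem_pow {f : ℕ → A} {c : A} (hf : IsUlim I f c) (m : ℕ) :
    ∀ᶠ n in (patchU : Filter ℕ), f n - c ∈ I ^ m := by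
  filter_upwards [hf m] with n hn
  rwa [smul_eq_mul, Ideal.mul_top] at hn

theorem isUlim_ring_iff {f : ℕ → A} {c : A} :
    IsUlim I f c ↔ ∀ m : ℕ, ∀ᶠ n in (patchU : Filter ℕ), f n - c ∈ I ^ m := by
  refine ⟨fun h m => h.mem_pow m, fun h m => ?_⟩
  filter_upwards [h m] with n hn
  rwa [smul_eq_mul, Ideal.mul_top]

/-- Existence of ultralimits in a precomplete module with finite quotients. -/
theorem exists_isUlim [IsPrecomplete I V]
    (hfin : ∀ m : ℕ, Finite (V ⧸ (I ^ m • ⊤ : Submodule A V))) (a : ℕ → V) :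
    ∃ L : V, IsUlim I a L := by
  have hc : ∀ m : ℕ, ∃ ℓ : V, ∀ᶠ n in (patchU : Filter ℕ),
      a n - ℓ ∈ (I ^ m • ⊤ : Submodule A V) := by
    intro m
    haveI := hfin m
    obtain ⟨c, hc⟩ := exists_eventually_eq_of_finite
      (fun n => (Submodule.Quotient.mk (a n) : V ⧸ (I ^ m • ⊤ : Submodule A V)))
    obtain ⟨ℓ, rfl⟩ := Submodule.Quotient.mk_surjective _ c
    refine ⟨ℓ, ?_⟩
    filter_upwards [hc] with n hn
    exact (Submodule.Quotient.eq _).mp hn
  choose ℓ hℓ using hc
  have hcompat : ∀ {m n : ℕ}, m ≤ n →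
      ℓ m ≡ ℓ n [SMOD (I ^ m • ⊤ : Submodule A V)] := by
    intro m n hmn
    rw [SModEq.sub_mem]
    obtain ⟨k, hk, hk'⟩ := ((hℓ m).and (hℓ n)).exists
    have hle : (I ^ n • ⊤ : Submodule A V) ≤ I ^ m • ⊤ :=
      Submodule.smul_mono_left (Ideal.pow_le_pow_right hmn)
    have : ℓ m - ℓ n = (a k - ℓ n) - (a k - ℓ m) := by abel
    rw [this]
    exact Submodule.sub_mem _ (hle hk') hk
  obtain ⟨L, hL⟩ := IsPrecomplete.prec ‹IsPrecomplete I V› hcompat
  refine ⟨L, fun m => ?_⟩
  filter_upwards [hℓ m] with n hn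
  have h1 : ℓ m - L ∈ (I ^ m • ⊤ : Submodule A V) := (SModEq.sub_mem).mp (hL m)
  have : a n - L = (a n - ℓ m) + (ℓ m - L) := by abel
  rw [this]
  exact Submodule.add_mem _ hn h1

end adic

end Fermat.Agent.S59
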