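/-
Cluster J (S59), work package J5 (patching theorem), part 4: ultralimits of algebra homomorphisms.
Owner: helper60.
-/
import Fermat.Agent.S59.Ulim

set_option autoImplicit false
set_option linter.style.haveILetI false

namespace Fermat.Agent.S59

open Filter

/-- The pointwise ultralimit of a sequence of algebra homomorphisms into an adically complete
ring with finite quotients is an algebra homomorphism. -/
theorem exists_algHom_isUlim {𝒪 A B : Type*} [CommRing 𝒪] [CommRing A] [Algebra 𝒪 A]
    [CommRing B] [Algebra 𝒪 B] (I : Ideal B) [IsAdicComplete I B]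
    (hfin : ∀ m : ℕ, Finite (B ⧸ (I ^ m • ⊤ : Submodule B B)))
    (θ : ℕ → (A →ₐ[𝒪] B)) :
    ∃ Θ : A →ₐ[𝒪] B, ∀ f : A, IsUlim I (fun n => θ n f) (Θ f) := by
  choose F hF using fun f : A => exists_isUlim (I := I) hfin (fun n => θ n f)
  have h1 : F 1 = 1 := by
    refine (hF 1).unique ?_
    simpa using isUlim_const (I := I) (1 : B)
  have hmul : ∀ f g : A, F (f * g) = F f * F g := by
    intro f g
    refine (hF (f * g)).unique ?_
    simpa using (hF f).mul (hF g)
  have h0 : F 0 = 0 := by
    refine (hF 0).unique ?_
    simpa using isUlim_const (I := I) (0 : B)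
  have hadd : ∀ f g : A, F (f + g) = F f + F g := by
    intro f g
    refine (hF (f + g)).unique ?_
    simpa using (hF f).add (hF g)
  have hcomm : ∀ c : 𝒪, F (algebraMap 𝒪 A c) = algebraMap 𝒪 B c := by
    intro c
    refine (hF (algebraMap 𝒪 A c)).unique ?_
    simpa using isUlim_const (I := I) (algebraMap 𝒪 B c)
  exact ⟨{ toFun := F
           map_one' := h1
           map_mul' := hmul
           map_zero' := h0
           map_add' := hadd
           commutes' := hcomm }, hF⟩

/-- The pointwise ultralimit of a sequence of semilinear maps. -/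
theorem exists_semilinear_isUlim {A B : Type*} [CommRing A] [CommRing B]
    {P V : Type*} [AddCommGroup P] [Module A P] [AddCommGroup V] [Module B V]
    (I : Ideal B) [IsHausdorff I B] [IsAdicComplete I V]
    (hfin : ∀ m : ℕ, Finite (V ⧸ (I ^ m • ⊤ : Submodule B V)))
    (Ψ : A →+* B) (a : ℕ → P → V) (ψ : ℕ → A → B)
    (hadd : ∀ n x y, a n (x + y) = a n x + a n y)
    (hsmul : ∀ n (f : A) x, a n (f • x) = ψ n f • a n x)
    (hψ : ∀ f : A, IsUlim I (fun n => ψ n f) (Ψ f)) :
    ∃ T : P →ₛₗ[Ψ] V, ∀ x : P, IsUlim I (fun n => a n x) (T x) := by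
  choose F hF using fun x : P => exists_isUlim (I := I) hfin (fun n => a n x)
  have hFadd : ∀ x y : P, F (x + y) = F x + F y := by
    intro x y
    refine (hF (x + y)).unique ?_
    simpa [hadd] using (hF x).add (hF y)
  have hFsmul : ∀ (f : A) (x : P), F (f • x) = Ψ f • F x := by
    intro f x
    refine (hF (f • x)).unique ?_
    simpa [hsmul] using (hψ f).smul (hF x)
  exact ⟨{ toFun := F
           map_add' := hFadd
           map_smul' := hFsmul }, hF⟩

end Fermat.Agent.S59
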