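/-
Cluster J (S59), work package J5 (patching theorem), part 5: the product of the level modules and
its submodule of null sequences.  Owner: helper60.
-/
import Fermat.Agent.S59.PatchAdic
import Fermat.Agent.S59.PatchUlimHom

set_option autoImplicit false
set_option linter.style.haveILetI false

namespace Fermat.Agent.S59

open IsLocalRing Filter

section construction

variable {𝒪 : Type} [CommRing 𝒪] [IsLocalRing 𝒪]
  {l r : ℕ} {R : Type} [CommRing R] [Algebra 𝒪 R] {M : Type} [AddCommGroup M] [Module R M]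
  (D : Algebra.PatchingDatum 𝒪 l r R M)

/-- The product of the level modules. -/
abbrev PatchProd : Type := ∀ n : ℕ, (D.level n).N

/-- The submodule of null sequences: those that are eventually in `φ_n(𝔫 ^ m) N_n` for all `m`. -/
def PatchNull : Submodule (MvPowerSeries (Fin r) 𝒪) (PatchProd D) where
  carrier := {x | ∀ m : ℕ, ∀ᶠ n in (patchU : Filter ℕ),
    x n ∈ (Ideal.map (D.level n).φ (maximalIdeal (MvPowerSeries (Fin r) 𝒪) ^ m) • ⊤ :
      Submodule (MvPowerSeries (Fin r) 𝒪) (D.level n).N)}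
  add_mem' := by
    intro x y hx hy m
    filter_upwards [hx m, hy m] with n hn hn'
    exact Submodule.add_mem _ hn hn'
  zero_mem' := by
    intro m
    exact Eventually.of_forall fun n => Submodule.zero_mem _
  smul_mem' := by
    intro f x hx m
    filter_upwards [hx m] with n hn
    exact Submodule.smul_mem _ f hn

theorem mem_patchNull_iff (x : PatchProd D) :
    x ∈ PatchNull D ↔ ∀ m : ℕ, ∀ᶠ n in (patchU : Filter ℕ),
      x n ∈ (Ideal.map (D.level n).φ (maximalIdeal (MvPowerSeries (Fin r) 𝒪) ^ m) • ⊤ :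
        Submodule (MvPowerSeries (Fin r) 𝒪) (D.level n).N) :=
  Iff.rfl

variable {d : ℕ} (hd : ∀ n, (D.level n).d = d)

include hd in
/-- A sequence multiplied by a null sequence of scalars is a null sequence (uniform continuity). -/
theorem smul_mem_patchNull
    [Finite (MvPowerSeries (Fin r) 𝒪 ⧸ maximalIdeal (MvPowerSeries (Fin r) 𝒪))]
    (g : ℕ → MvPowerSeries (Fin r) 𝒪)
    (hg : IsUlim (maximalIdeal (MvPowerSeries (Fin r) 𝒪)) g 0) (y : PatchProd D) :
    (fun n => g n • y n) ∈ PatchNull D := by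
  intro m
  have h := (isUlim_ring_iff.mp hg)
    (Nat.card (MvPowerSeries (Fin r) 𝒪 ⧸ maximalIdeal (MvPowerSeries (Fin r) 𝒪)) ^ d * m)
  filter_upwards [h] with n hn
  rw [sub_zero] at hn
  exact maximalIdeal_pow_mul_smul_top_le_map (D.level n) (hd n) m
    (Submodule.smul_mem_smul hn Submodule.mem_top)

/-- Vectors whose coordinates tend to zero form a null sequence. -/
theorem pvec_mem_patchNull (c : ℕ → Fin d → MvPowerSeries (Fin r) 𝒪)
    (hc : ∀ i, IsUlim (maximalIdeal (MvPowerSeries (Fin r) 𝒪)) (fun n => c n i) 0) :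
    (fun n => pvec (D.level n) (hd n) (c n)) ∈ PatchNull D := by
  intro m
  have h : ∀ᶠ n in (patchU : Filter ℕ), ∀ i : Fin d,
      c n i ∈ maximalIdeal (MvPowerSeries (Fin r) 𝒪) ^ m := by
    rw [Filter.eventually_all]
    intro i
    filter_upwards [(isUlim_ring_iff.mp (hc i)) m] with n hn
    rwa [sub_zero] at hn
  filter_upwards [h] with n hn
  exact (mem_map_smul_top_iff (D.level n) (hd n) _ _).mpr ⟨c n, hn, rfl⟩

/-- A constant coordinate vector that gives a null sequence is zero. -/
theorem eq_zero_of_pvec_mem_patchNull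
    [IsHausdorff (maximalIdeal (MvPowerSeries (Fin r) 𝒪)) (MvPowerSeries (Fin r) 𝒪)]
    (hl : (l : 𝒪) ∈ maximalIdeal 𝒪)
    (c : Fin d → MvPowerSeries (Fin r) 𝒪)
    (h : (fun n => pvec (D.level n) (hd n) c) ∈ PatchNull D) : c = 0 := by
  funext i
  apply IsHausdorff.haus (I := maximalIdeal (MvPowerSeries (Fin r) 𝒪)) ‹_›
  intro m
  rw [SModEq.zero, smul_eq_mul, Ideal.mul_top]
  obtain ⟨n, hn, hmn⟩ := ((h m).and (eventually_patchU_ge m)).exists
  obtain ⟨c', hc', heq⟩ := (mem_map_smul_top_iff (D.level n) (hd n) _ _).mp hn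
  rw [pvec_eq_iff] at heq
  have h1 : c' i - c i ∈ maximalIdeal (MvPowerSeries (Fin r) 𝒪) ^ m := by
    have h2 := patchIdeal_le_pow r hl n (heq i)
    exact Ideal.pow_le_pow_right (by omega) h2
  have h3 := Ideal.sub_mem _ (hc' i) h1
  simpa using h3

end construction

end Fermat.Agent.S59
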