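/-
Cluster J (S59), J7: the reduction map between universal deformation rings (helper6).
If the condition `𝒟'` implies `𝒟`, the universal property of `D` gives `red : D.R → D'.R`; it is
SURJECTIVE.  Proof: let `A = D'.R ⧸ 𝔪²` and `B = D.R ⧸ ker (D.R → A)`; the push-forward of the
universal deformation of `D'` to `A` is defined over `B ⊆ A`, so (descent to subrings + the
universal property of `D'`, `redAux_surjective_of_lift`) `B = A`; hence `red` is onto modulo `𝔪²`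
and Nakayama for complete local rings (`redAux_surjective_of_sq`) concludes.
-/
import Fermat.Prelude.Def_GaloisRep_DeformationCondition
import Fermat.Prelude.Def_GaloisRep_DeformationRingData
import Fermat.Agent.S59.RedMapAux

set_option autoImplicit false
set_option linter.style.haveILetI false

namespace Fermat.Agent.S59

open IsLocalRing GaloisRep

theorem exists_surjective_red {𝒪 : Type} [CommRing 𝒪] [IsDomain 𝒪] [IsDiscreteValuationRing 𝒪]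
    [IsAdicComplete (IsLocalRing.maximalIdeal 𝒪) 𝒪]
    {ρbar : ResidualGaloisRep (IsLocalRing.ResidueField 𝒪)}
    {𝒟 𝒟' : ∀ ⦃A : Type⦄ [CommRing A] [IsLocalRing A] [Algebra 𝒪 A], GaloisRepAdic A → Prop}
    (h𝒟 : GaloisRep.IsDeformationCondition 𝒪 𝒟) (h𝒟' : GaloisRep.IsDeformationCondition 𝒪 𝒟')
    (himp : ∀ ⦃A : Type⦄ [CommRing A] [IsLocalRing A] [Algebra 𝒪 A] (ρ : GaloisRepAdic A),
      𝒟' ρ → 𝒟 ρ)
    (D : GaloisRep.DeformationRingData 𝒪 ρbar 𝒟) (D' : GaloisRep.DeformationRingData 𝒪 ρbar 𝒟') :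
    ∃ red : D.R →ₐ[𝒪] D'.R, Function.Surjective red ∧
      ∃ hred : IsLocalHom (red : D.R →+* D'.R),
        (D.ρ.baseChangeAlong (red : D.R →+* D'.R) hred).IsEquiv D'.ρ := by
  obtain ⟨red, ⟨hred, hredE⟩, -⟩ := D.universal D'.R D'.residue_surjective D'.ρ
    (himp D'.ρ D'.isOfType) D'.residual_isEquiv
  refine ⟨red, ?_, hred, hredE⟩
  -- the Artinian quotient `A = D'.R ⧸ 𝔪²`
  have hI : maximalIdeal D'.R ^ 2 ≠ ⊤ := by
    intro h
    have hle : maximalIdeal D'.R ^ 2 ≤ maximalIdeal D'.R := Ideal.pow_le_self two_ne_zero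
    rw [h] at hle
    exact (IsLocalRing.maximalIdeal.isMaximal D'.R).ne_top (top_le_iff.1 hle)
  haveI : IsLocalRing (D'.R ⧸ maximalIdeal D'.R ^ 2) := redAux_isLocalRing_quotient _ hI
  have hA : IsArtinianTestAlgebra 𝒪 (D'.R ⧸ maximalIdeal D'.R ^ 2) :=
    redAux_isArtinianTestAlgebra_quotient inferInstance D'.residue_surjective _ le_rfl
  haveI : IsArtinianRing (D'.R ⧸ maximalIdeal D'.R ^ 2) := hA.isArtinian
  haveI : IsLocalHom (algebraMap 𝒪 (D'.R ⧸ maximalIdeal D'.R ^ 2)) := hA.isLocalHom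
  let q : D'.R →ₐ[𝒪] (D'.R ⧸ maximalIdeal D'.R ^ 2) := Ideal.Quotient.mkₐ 𝒪 _
  have hq : Function.Surjective q := Ideal.Quotient.mkₐ_surjective 𝒪 _
  have hqloc : IsLocalHom (q : D'.R →+* (D'.R ⧸ maximalIdeal D'.R ^ 2)) :=
    IsLocalHom.of_surjective (q : D'.R →+* (D'.R ⧸ maximalIdeal D'.R ^ 2)) hq
  -- the composite `f : D.R → A` and `B = D.R ⧸ ker f`
  let f : D.R →ₐ[𝒪] (D'.R ⧸ maximalIdeal D'.R ^ 2) := q.comp red
  have hfloc0 : IsLocalHom ((q : D'.R →+* (D'.R ⧸ maximalIdeal D'.R ^ 2)).comp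
      (red : D.R →+* D'.R)) :=
    @RingHom.isLocalHom_comp _ _ _ _ _ _ (q : D'.R →+* (D'.R ⧸ maximalIdeal D'.R ^ 2))
      (red : D.R →+* D'.R) hqloc hred
  have hfloc : IsLocalHom (f : D.R →+* (D'.R ⧸ maximalIdeal D'.R ^ 2)) := hfloc0
  have hK : RingHom.ker (f : D.R →+* (D'.R ⧸ maximalIdeal D'.R ^ 2)) ≠ ⊤ := by
    intro h
    have h1 : (1 : D.R) ∈ RingHom.ker (f : D.R →+* (D'.R ⧸ maximalIdeal D'.R ^ 2)) := by
      rw [h]; trivial
    rw [RingHom.mem_ker, map_one] at h1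
    exact one_ne_zero h1
  have hKpow : maximalIdeal D.R ^ 2 ≤
      RingHom.ker (f : D.R →+* (D'.R ⧸ maximalIdeal D'.R ^ 2)) := by
    have h1 : (maximalIdeal D.R).map (f : D.R →+* (D'.R ⧸ maximalIdeal D'.R ^ 2)) ≤
        maximalIdeal (D'.R ⧸ maximalIdeal D'.R ^ 2) :=
      Ideal.map_le_iff_le_comap.mpr fun a ha => Ideal.mem_comap.mpr
        (haveI := hfloc; map_nonunit (f : D.R →+* (D'.R ⧸ maximalIdeal D'.R ^ 2)) a ha)
    have h2 : maximalIdeal (D'.R ⧸ maximalIdeal D'.R ^ 2) ^ 2 = ⊥ := by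
      rw [eq_bot_iff]
      have hmap : maximalIdeal (D'.R ⧸ maximalIdeal D'.R ^ 2) ≤
          (maximalIdeal D'.R).map (Ideal.Quotient.mk (maximalIdeal D'.R ^ 2)) := by
        intro x hx
        obtain ⟨a, rfl⟩ := Ideal.Quotient.mk_surjective x
        exact Ideal.mem_map_of_mem _ ((redAux_mk_mem_maximalIdeal _).1 hx)
      calc maximalIdeal (D'.R ⧸ maximalIdeal D'.R ^ 2) ^ 2
          ≤ ((maximalIdeal D'.R).map (Ideal.Quotient.mk (maximalIdeal D'.R ^ 2))) ^ 2 :=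
            Ideal.pow_right_mono hmap 2
        _ = (maximalIdeal D'.R ^ 2).map (Ideal.Quotient.mk (maximalIdeal D'.R ^ 2)) :=
            (Ideal.map_pow _ _ _).symm
        _ = ⊥ := by rw [Ideal.map_quotient_self]
    rw [← Ideal.map_eq_bot_iff_le_ker, Ideal.map_pow, eq_bot_iff, ← h2]
    exact Ideal.pow_right_mono h1 2
  haveI : IsLocalRing (D.R ⧸ RingHom.ker (f : D.R →+* (D'.R ⧸ maximalIdeal D'.R ^ 2))) :=
    redAux_isLocalRing_quotient _ hK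
  have hB : IsArtinianTestAlgebra 𝒪
      (D.R ⧸ RingHom.ker (f : D.R →+* (D'.R ⧸ maximalIdeal D'.R ^ 2))) :=
    redAux_isArtinianTestAlgebra_quotient inferInstance D.residue_surjective _ hKpow
  haveI : IsArtinianRing (D.R ⧸ RingHom.ker (f : D.R →+* (D'.R ⧸ maximalIdeal D'.R ^ 2))) :=
    hB.isArtinian
  haveI : IsLocalHom (algebraMap 𝒪
      (D.R ⧸ RingHom.ker (f : D.R →+* (D'.R ⧸ maximalIdeal D'.R ^ 2)))) := hB.isLocalHom
  let r₀ : D.R →ₐ[𝒪] (D.R ⧸ RingHom.ker (f : D.R →+* (D'.R ⧸ maximalIdeal D'.R ^ 2))) :=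
    Ideal.Quotient.mkₐ 𝒪 _
  have hr₀ : Function.Surjective r₀ := Ideal.Quotient.mkₐ_surjective 𝒪 _
  have hr₀loc : IsLocalHom (r₀ : D.R →+* (D.R ⧸ RingHom.ker (f : D.R →+* (D'.R ⧸ maximalIdeal D'.R ^ 2)))) :=
    IsLocalHom.of_surjective (r₀ : D.R →+* (D.R ⧸ RingHom.ker (f : D.R →+* (D'.R ⧸ maximalIdeal D'.R ^ 2)))) hr₀
  let ι : (D.R ⧸ RingHom.ker (f : D.R →+* (D'.R ⧸ maximalIdeal D'.R ^ 2))) →ₐ[𝒪]
      (D'.R ⧸ maximalIdeal D'.R ^ 2) := Ideal.kerLiftAlg f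
  have hι : Function.Injective ι := Ideal.kerLiftAlg_injective f
  have hιr₀ : ∀ x, ι (r₀ x) = f x := fun x => Ideal.kerLiftAlg_mk f x
  have hιloc : IsLocalHom (ι : (D.R ⧸ RingHom.ker (f : D.R →+* (D'.R ⧸ maximalIdeal D'.R ^ 2))) →+* (D'.R ⧸ maximalIdeal D'.R ^ 2)) := by
    refine ⟨fun b hb => ?_⟩
    obtain ⟨x, rfl⟩ := hr₀ b
    have hb' : IsUnit (f x) := by
      have : (ι : (D.R ⧸ RingHom.ker (f : D.R →+* (D'.R ⧸ maximalIdeal D'.R ^ 2))) →+* (D'.R ⧸ maximalIdeal D'.R ^ 2)) (r₀ x) = f x := hιr₀ x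
      rw [← this]; exact hb
    have hx : IsUnit x :=
      haveI := hfloc
      isUnit_of_map_unit (f : D.R →+* (D'.R ⧸ maximalIdeal D'.R ^ 2)) x hb'
    exact hx.map r₀
  -- the deformation over `B`
  have hresB := redAux_residual_baseChange ρbar r₀ hr₀loc D.ρ D.residual_isEquiv
  have hcomp1 : IsLocalHom ((ι : (D.R ⧸ RingHom.ker (f : D.R →+* (D'.R ⧸ maximalIdeal D'.R ^ 2))) →+* (D'.R ⧸ maximalIdeal D'.R ^ 2)).comp (r₀ : D.R →+* (D.R ⧸ RingHom.ker (f : D.R →+* (D'.R ⧸ maximalIdeal D'.R ^ 2))))) :=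
    @RingHom.isLocalHom_comp _ _ _ _ _ _ (ι : (D.R ⧸ RingHom.ker (f : D.R →+* (D'.R ⧸ maximalIdeal D'.R ^ 2))) →+* (D'.R ⧸ maximalIdeal D'.R ^ 2))
      (r₀ : D.R →+* (D.R ⧸ RingHom.ker (f : D.R →+* (D'.R ⧸ maximalIdeal D'.R ^ 2)))) hιloc hr₀loc
  have hcomp2 : IsLocalHom ((q : D'.R →+* (D'.R ⧸ maximalIdeal D'.R ^ 2)).comp
      (red : D.R →+* D'.R)) := hfloc0
  have heq : (ι : (D.R ⧸ RingHom.ker (f : D.R →+* (D'.R ⧸ maximalIdeal D'.R ^ 2))) →+* (D'.R ⧸ maximalIdeal D'.R ^ 2)).comp (r₀ : D.R →+* (D.R ⧸ RingHom.ker (f : D.R →+* (D'.R ⧸ maximalIdeal D'.R ^ 2)))) =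
      (q : D'.R →+* (D'.R ⧸ maximalIdeal D'.R ^ 2)).comp (red : D.R →+* D'.R) := by
    ext x
    exact hιr₀ x
  have hE : ((D.ρ.baseChangeAlong (r₀ : D.R →+* (D.R ⧸ RingHom.ker (f : D.R →+* (D'.R ⧸ maximalIdeal D'.R ^ 2)))) hr₀loc).baseChangeAlong
      (ι : (D.R ⧸ RingHom.ker (f : D.R →+* (D'.R ⧸ maximalIdeal D'.R ^ 2))) →+* (D'.R ⧸ maximalIdeal D'.R ^ 2)) hιloc).IsEquiv
      (D'.ρ.baseChangeAlong (q : D'.R →+* (D'.R ⧸ maximalIdeal D'.R ^ 2)) hqloc) := by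
    have a1 := redAux_baseChangeAlong_comp (r₀ : D.R →+* (D.R ⧸ RingHom.ker (f : D.R →+* (D'.R ⧸ maximalIdeal D'.R ^ 2)))) hr₀loc
      (ι : (D.R ⧸ RingHom.ker (f : D.R →+* (D'.R ⧸ maximalIdeal D'.R ^ 2))) →+* (D'.R ⧸ maximalIdeal D'.R ^ 2)) hιloc hcomp1 D.ρ
    have a2 := redAux_baseChangeAlong_congr heq hcomp1 hcomp2 D.ρ
    have a3 := redAux_baseChangeAlong_comp (red : D.R →+* D'.R) hred
      (q : D'.R →+* (D'.R ⧸ maximalIdeal D'.R ^ 2)) hqloc hcomp2 D.ρ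
    have a4 := redAux_isEquiv_baseChange
      (q : D'.R →+* (D'.R ⧸ maximalIdeal D'.R ^ 2)) hqloc hredE
    exact redAux_isEquiv_trans a1 (redAux_isEquiv_trans a2
      (redAux_isEquiv_trans (redAux_isEquiv_symm a3) a4))
  have hsurj : Function.Surjective ι :=
    redAux_surjective_of_lift h𝒟' D' hA.residue_surjective hB.residue_surjective q hq hqloc
      ι hι hιloc _ hresB hE
  -- `red` is onto modulo `𝔪²`, hence onto
  haveI := hred
  refine redAux_surjective_of_sq (red : D.R →+* D'.R) fun y => ?_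
  obtain ⟨b, hb⟩ := hsurj (q y)
  obtain ⟨x, rfl⟩ := hr₀ b
  refine ⟨x, ?_⟩
  have h1 : q (red x) = q y := by
    rw [← hb]; exact (hιr₀ x).symm
  have h2 : Ideal.Quotient.mk (maximalIdeal D'.R ^ 2) y
      = Ideal.Quotient.mk (maximalIdeal D'.R ^ 2) (red x) := h1.symm
  exact Ideal.Quotient.eq.1 h2

end Fermat.Agent.S59
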