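/-
Cluster J (S59): top-level reduction of the frozen statement S59 (modularity lifting at `p = 3, 5`,
exact conductor level) to three inputs:
 * `LevelOpt p`  : level optimisation (residual modularity at the minimal level),
 * `Lift p`      : modularity lifting from the minimal residual level to SOME cube-free level
                   divisible by all bad primes (`R = T`),
 * `Inp58`       : the frozen statement S58 (conductor-level matching).
Owner: helper60.  Sorry-free.
-/
import Fermat.Prelude.Def_WeierstrassCurve_Mlc1RowStatement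
import Fermat.Prelude.Def_WeierstrassCurve_ConductorLevel

set_option autoImplicit false
open scoped WeierstrassCurve.Affine

namespace Fermat.Agent.S59

open WeierstrassCurve

/-- The minimal residual level of a semistable curve at `p`: the product of the bad primes `q`
(`q = p` included) with `p ∤ v_q(Δ)`. -/
noncomputable def minimalLevel (W : WeierstrassCurve ℤ) (p : ℕ) : ℕ :=
  ∏ q ∈ W.Δ.natAbs.primeFactors.filter (fun q => ¬ p ∣ padicValNat q W.Δ.natAbs), q

theorem minimalLevel_pos (W : WeierstrassCurve ℤ) (p : ℕ) : 0 < minimalLevel W p :=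
  Finset.prod_pos fun q hq => (Nat.prime_of_mem_primeFactors (Finset.mem_filter.mp hq).1).pos

/-- Level optimisation: residual modularity at a cube-free (away from `p`) level with `p² ∤` level
implies residual modularity at the minimal level. -/
def LevelOpt (p : ℕ) : Prop :=
  ∀ W : WeierstrassCurve ℤ, W.Δ ≠ 0 → W.IsSemistableModel → W.ModRepIsIrreducible p →
    ∀ M₀ : ℕ, 0 < M₀ → W.IsResiduallyModularOfLevel p M₀ → ¬ p ^ 2 ∣ M₀ →
      (∀ q : ℕ, q.Prime → q ≠ p → ¬ q ^ 3 ∣ M₀) →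
      W.IsResiduallyModularOfLevel p (minimalLevel W p)

/-- Modularity lifting (`R = T`): from residual modularity at the minimal level to modularity at
some cube-free level, not divisible by `p²`, divisible by all bad primes. -/
def Lift (p : ℕ) : Prop :=
  ∀ W : WeierstrassCurve ℤ, W.Δ ≠ 0 → W.IsSemistableModel → W.ModRepIsIrreducible p →
    W.IsResiduallyModularOfLevel p (minimalLevel W p) →
    ∃ N : ℕ, ¬ p ^ 2 ∣ N ∧ (∀ q : ℕ, q.Prime → ¬ q ^ 3 ∣ N) ∧
      (∀ ℓ : ℕ, ℓ.Prime → (ℓ : ℤ) ∣ W.Δ → ℓ ∣ N) ∧ W.IsModularModelOfLevel N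

/-- The shape of the frozen statement S58. -/
def Inp58 : Prop :=
  ∀ (W : WeierstrassCurve ℤ), W.IsSemistableModel → ∀ (N : ℕ) (p : ℕ) [Fact p.Prime], p ≠ 2 →
    W.ModRepIsIrreducible p → ¬ p ^ 2 ∣ N → W.IsModularModelOfLevel N →
    (∀ ℓ : ℕ, ℓ.Prime → (ℓ : ℤ) ∣ W.Δ → ℓ ∣ N) → (∀ q : ℕ, q.Prime → ¬ q ^ 3 ∣ N) →
    W.IsModularModelOfLevel W.conductorLevel

/-- **Reduction of S59.** -/
theorem s59_of_inputs (h58 : Inp58) (hLO : ∀ p, p = 3 ∨ p = 5 → LevelOpt p)
    (hLift : ∀ p, p = 3 ∨ p = 5 → Lift p)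
    (p : ℕ) (hp : p = 3 ∨ p = 5)
    (W : WeierstrassCurve ℤ) (hΔ : W.Δ ≠ 0) (hW : W.IsSemistableModel)
    (hirr : W.ModRepIsIrreducible p)
    (M₀ : ℕ) [NeZero M₀] (hres₀ : W.IsResiduallyModularOfLevel p M₀)
    (hM₀ : ¬ p ^ 2 ∣ M₀)
    (hM₀3 : ∀ q : ℕ, q.Prime → q ≠ p → ¬ q ^ 3 ∣ M₀) :
    Mlc1IsModularModelOfExactConductorLevel W := by
  have hpp : p.Prime := by rcases hp with rfl | rfl <;> norm_num
  haveI : Fact p.Prime := ⟨hpp⟩
  have hp2 : p ≠ 2 := by rcases hp with rfl | rfl <;> norm_num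
  have hmin := hLO p hp W hΔ hW hirr M₀ (Nat.pos_of_ne_zero (NeZero.ne M₀)) hres₀ hM₀ hM₀3
  obtain ⟨N, hN2, hN3, hbad, hmod⟩ := hLift p hp W hΔ hW hirr hmin
  have hcond := h58 W hW N p hp2 hirr hN2 hmod hbad hN3
  exact ⟨W.conductorLevel, W.conductorLevel_pos, W.squarefree_conductorLevel,
    fun q hq => W.prime_dvd_conductorLevel_iff hΔ hq, hcond⟩

end Fermat.Agent.S59
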