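/-
Cluster J (S59), J2: the group-theoretic hypotheses of S56 (`hsplit`, `hTW`) for the base change to
`k ⊇ 𝔽_{p²}` of a mod-`p` representation `ρ₀` over `𝔽_p` with big image.  (owner: helper23)

Why big image is available: in `Lift p` the curve is residually modular of level `minimalLevel W p`;
if no bad prime `q` has `p ∤ v_q(Δ)` this level is `1` and S08 (no cusp forms of level 1) gives a
contradiction.  Otherwise inertia at such a `q` contains a transvection (Tate curve), and an
irreducible subgroup of `GL₂(𝔽_p)` containing a transvection contains `SL₂(𝔽_p)`.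

Proof used here (no classification of subgroups): irreducibility gives two transvections
`1 + N`, `1 + N'` in the image with different fixed lines; then `N N' + N' N = c` is a nonzero
scalar, an identity that survives every base change; a subspace stable under `N` and `N'` is then
`⊥` or `⊤`.  For an index-two subgroup one uses the squares `1 + 2N`, `1 + 2N'` (`p ≠ 2`).
-/
import Fermat.Prelude.Def_GaloisRep_Residual

set_option autoImplicit false

open Polynomial

namespace Fermat.Agent.S59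

section LinAlg

variable {K : Type*} [Field K] {U : Type*} [AddCommGroup U] [Module K U]

/-- In a two-dimensional space a subspace containing `w₁ ≠ 0` with `A w₁ = 0` and `w₂` with
`A w₂ ≠ 0` is everything. -/
theorem s56hyp_eq_top_of_two (hU : Module.finrank K U = 2) (W : Submodule K U)
    (A : Module.End K U) (w₁ w₂ : U) (h₁ : w₁ ∈ W) (h₂ : w₂ ∈ W) (hA₁ : A w₁ = 0)
    (hA₂ : A w₂ ≠ 0) (hw₁ : w₁ ≠ 0) : W = ⊤ := by
  haveI : Module.Finite K U := Module.finite_of_finrank_eq_succ hU
  have hli : LinearIndependent K ![(⟨w₁, h₁⟩ : W), ⟨w₂, h₂⟩] := by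
    rw [LinearIndependent.pair_iff]
    intro s t hst
    have hst' : s • w₁ + t • w₂ = 0 := by
      have := congrArg (fun z : W => (z : U)) hst
      simpa using this
    have ht : t = 0 := by
      have h := congrArg A hst'
      rw [map_add, map_smul, map_smul, hA₁, smul_zero, zero_add, map_zero] at h
      rcases smul_eq_zero.mp h with h | h
      · exact h
      · exact absurd h hA₂
    refine ⟨?_, ht⟩
    rw [ht, zero_smul, add_zero] at hst'
    rcases smul_eq_zero.mp hst' with h | h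
    · exact h
    · exact absurd h hw₁
  have hcard := hli.fintype_card_le_finrank
  simp only [Fintype.card_fin] at hcard
  apply Submodule.eq_top_of_finrank_eq
  have hle := Submodule.finrank_le W
  omega

/-- Two square-zero endomorphisms of a plane with `A B + B A` a nonzero scalar have no common
stable proper nonzero subspace. -/
theorem s56hyp_stable_bot_or_top (hU : Module.finrank K U = 2) (A B : Module.End K U) (c : K)
    (hc : c ≠ 0) (hA : A * A = 0) (hAB : A * B + B * A = c • (1 : Module.End K U))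
    (W : Submodule K U) (hWA : ∀ w ∈ W, A w ∈ W) (hWB : ∀ w ∈ W, B w ∈ W) :
    W = ⊥ ∨ W = ⊤ := by
  by_cases hW : W = ⊥
  · exact Or.inl hW
  right
  obtain ⟨w, hwW, hw0⟩ := Submodule.exists_mem_ne_zero_of_ne_bot hW
  have key : ∀ v : U, A (B v) + B (A v) = c • v := by
    intro v
    have := congrArg (fun f : Module.End K U => f v) hAB
    simpa using this
  have hAA : ∀ v : U, A (A v) = 0 := by
    intro v
    have := congrArg (fun f : Module.End K U => f v) hA
    simpa using this
  by_cases hAw : A w = 0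
  · refine s56hyp_eq_top_of_two hU W A w (B w) hwW (hWB w hwW) hAw ?_ hw0
    have h := key w
    rw [hAw, map_zero, add_zero] at h
    rw [h]
    exact smul_ne_zero hc hw0
  · refine s56hyp_eq_top_of_two hU W A (A w) (B (A w)) (hWA w hwW) (hWB _ (hWA w hwW))
      (hAA w) ?_ hAw
    have h := key (A w)
    rw [hAA w, map_zero, add_zero] at h
    rw [h]
    exact smul_ne_zero hc hAw

/-- The pair `N`, `g N g⁻¹` for a square-zero `N` and `g` moving a vector of `ker N` out of
`ker N`. -/
theorem s56hyp_pair_linalg (hU : Module.finrank K U = 2) (N g g' : Module.End K U)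
    (hN : N * N = 0) (hgg' : g * g' = 1) (hg'g : g' * g = 1) (x : U) (hx : N x = 0)
    (hgx : N (g x) ≠ 0) :
    ∃ c : K, c ≠ 0 ∧ N * (g * N * g') + (g * N * g') * N = c • (1 : Module.End K U) := by
  haveI : Module.Finite K U := Module.finite_of_finrank_eq_succ hU
  have hNN : ∀ v : U, N (N v) = 0 := by
    intro v
    have := congrArg (fun f : Module.End K U => f v) hN
    simpa using this
  have hg'gv : ∀ v : U, g' (g v) = v := by
    intro v
    have := congrArg (fun f : Module.End K U => f v) hg'g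
    simpa using this
  have hgg'v : ∀ v : U, g (g' v) = v := by
    intro v
    have := congrArg (fun f : Module.End K U => f v) hgg'
    simpa using this
  have hgx0 : g x ≠ 0 := by
    intro h
    apply hgx
    rw [h, map_zero]
  have hx0 : x ≠ 0 := by
    intro h
    apply hgx0
    rw [h, map_zero]
  have hli : LinearIndependent K ![x, g x] := by
    rw [LinearIndependent.pair_iff]
    intro s t hst
    have ht : t = 0 := by
      have h := congrArg N hst
      rw [map_add, map_smul, map_smul, hx, smul_zero, zero_add, map_zero] at h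
      rcases smul_eq_zero.mp h with h | h
      · exact h
      · exact absurd h hgx
    refine ⟨?_, ht⟩
    rw [ht, zero_smul, add_zero] at hst
    rcases smul_eq_zero.mp hst with h | h
    · exact h
    · exact absurd h hx0
  have hspan : ∀ v : U, ∃ a b : K, a • x + b • g x = v := by
    intro v
    have htop : Submodule.span K (Set.range ![x, g x]) = ⊤ :=
      hli.span_eq_top_of_card_eq_finrank' (by simp [hU])
    have hv : v ∈ Submodule.span K (Set.range ![x, g x]) := by
      rw [htop]; exact Submodule.mem_top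
    have hr : Set.range ![x, g x] = {x, g x} := by
      ext y
      simp only [Set.mem_range, Set.mem_insert_iff, Set.mem_singleton_iff]
      constructor
      · rintro ⟨i, rfl⟩
        fin_cases i
        · left; rfl
        · right; rfl
      · rintro (rfl | rfl)
        · exact ⟨0, rfl⟩
        · exact ⟨1, rfl⟩
    rw [hr] at hv
    exact Submodule.mem_span_pair.mp hv
  set N' : Module.End K U := g * N * g' with hN'
  have hN'v : ∀ v : U, N' v = g (N (g' v)) := fun v => rfl
  have hN'N' : ∀ v : U, N' (N' v) = 0 := by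
    intro v
    rw [hN'v, hN'v, hg'gv, hNN, map_zero]
  have hN'gx : N' (g x) = 0 := by
    rw [hN'v, hg'gv, hx, map_zero]
  -- `N (g x) = α x`
  obtain ⟨α, β, hαβ⟩ := hspan (N (g x))
  have hβ : β = 0 := by
    have h := congrArg N hαβ
    rw [map_add, map_smul, map_smul, hx, smul_zero, zero_add, hNN] at h
    rcases smul_eq_zero.mp h with h | h
    · exact h
    · exact absurd h hgx
  rw [hβ, zero_smul, add_zero] at hαβ
  have hα : α ≠ 0 := by
    intro h
    apply hgx
    rw [← hαβ, h, zero_smul]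
  -- `N' x = δ (g x)`
  obtain ⟨γ, δ, hγδ⟩ := hspan (N' x)
  have hN'x : N' x ≠ 0 := by
    intro h0
    -- then `N' = 0`, so `N = 0`
    have hN'0 : ∀ v : U, N' v = 0 := by
      intro v
      obtain ⟨a, b, rfl⟩ := hspan v
      rw [map_add, map_smul, map_smul, h0, hN'gx, smul_zero, smul_zero, add_zero]
    apply hgx
    have h1 := hN'0 (g (g x))
    rw [hN'v, hg'gv] at h1
    have h2 := congrArg g' h1
    rw [hg'gv, map_zero] at h2
    exact h2
  have hγ : γ = 0 := by
    have h := congrArg N' hγδ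
    rw [map_add, map_smul, map_smul, hN'gx, smul_zero, add_zero, hN'N'] at h
    rcases smul_eq_zero.mp h with h | h
    · exact h
    · exact absurd h hN'x
  rw [hγ, zero_smul, zero_add] at hγδ
  have hδ : δ ≠ 0 := by
    intro h
    apply hN'x
    rw [← hγδ, h, zero_smul]
  have hNgx : N (g x) = α • x := hαβ.symm
  have hN'x' : N' x = δ • g x := hγδ.symm
  refine ⟨α * δ, mul_ne_zero hα hδ, ?_⟩
  ext v
  obtain ⟨a, b, rfl⟩ := hspan v
  simp only [LinearMap.add_apply, Module.End.mul_apply, LinearMap.smul_apply,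
    Module.End.one_apply, map_add, map_smul, hx, hN'gx, hNgx, hN'x', smul_zero, zero_add,
    add_zero, smul_add, smul_smul, map_zero]
  module

/-- The identities of the pair survive base change. -/
theorem s56hyp_pair_baseChange {F : Type*} [Field F] {V : Type*} [AddCommGroup V] [Module F V]
    (F' : Type*) [Field F'] [Algebra F F'] (A B : Module.End F V) (c : F)
    (hA : A * A = 0) (hAB : A * B + B * A = c • (1 : Module.End F V)) :
    A.baseChange F' * A.baseChange F' = 0 ∧
      A.baseChange F' * B.baseChange F' + B.baseChange F' * A.baseChange F' =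
        (algebraMap F F' c) • (1 : Module.End F' (TensorProduct F F' V)) := by
  constructor
  · rw [← LinearMap.baseChange_mul, hA, LinearMap.baseChange_zero]
  · rw [← LinearMap.baseChange_mul, ← LinearMap.baseChange_mul, ← LinearMap.baseChange_add, hAB,
      LinearMap.baseChange_smul, LinearMap.baseChange_one]
    ext v
    simp [Algebra.smul_def, TensorProduct.smul_tmul']

end LinAlg

local notation "Γℚ" => (AlgebraicClosure ℚ ≃ₐ[ℚ] AlgebraicClosure ℚ)

/-- An irreducible two-dimensional representation over `𝔽_p` whose image contains a nontrivial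
unipotent element contains two of them, `1 + N` and `1 + N'`, with `N N' + N' N` a nonzero
scalar. -/
theorem s56hyp_exists_pair (p : ℕ) [Fact p.Prime] (ρ₀ : ResidualGaloisRep (ZMod p))
    (hirr : ρ₀.IsIrreducible)
    (hunip : ∃ σ : Γℚ, (ρ₀.ρ σ - 1) * (ρ₀.ρ σ - 1) = 0 ∧ ρ₀.ρ σ - 1 ≠ 0) :
    ∃ (σ σ' : Γℚ) (c : ZMod p), c ≠ 0 ∧ (ρ₀.ρ σ - 1) * (ρ₀.ρ σ - 1) = 0 ∧
      (ρ₀.ρ σ' - 1) * (ρ₀.ρ σ' - 1) = 0 ∧
      (ρ₀.ρ σ - 1) * (ρ₀.ρ σ' - 1) + (ρ₀.ρ σ' - 1) * (ρ₀.ρ σ - 1) =
        c • (1 : Module.End (ZMod p) ρ₀.V) := by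
  obtain ⟨σ, hN, hN0⟩ := hunip
  set N : Module.End (ZMod p) ρ₀.V := ρ₀.ρ σ - 1 with hNdef
  have hNN : ∀ v : ρ₀.V, N (N v) = 0 := by
    intro v
    have := congrArg (fun f : Module.End (ZMod p) ρ₀.V => f v) hN
    simpa using this
  -- the kernel of `N` is not stable
  have hnot : ¬ ∀ τ : Γℚ, ∀ x ∈ LinearMap.ker N, ρ₀.ρ τ x ∈ LinearMap.ker N := by
    intro hst
    rcases hirr (LinearMap.ker N) hst with h | h
    · apply hN0
      ext v
      have hv : N v ∈ LinearMap.ker N := LinearMap.mem_ker.mpr (hNN v)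
      rw [h] at hv
      simpa using hv
    · apply hN0
      exact LinearMap.ker_eq_top.mp h
  push Not at hnot
  obtain ⟨τ, x, hx, hgx⟩ := hnot
  rw [LinearMap.mem_ker] at hx hgx
  have hgg' : ρ₀.ρ τ * ρ₀.ρ τ⁻¹ = 1 := by rw [← map_mul, mul_inv_cancel, map_one]
  have hg'g : ρ₀.ρ τ⁻¹ * ρ₀.ρ τ = 1 := by rw [← map_mul, inv_mul_cancel, map_one]
  obtain ⟨c, hc, hcN⟩ := s56hyp_pair_linalg ρ₀.finrank_eq N (ρ₀.ρ τ) (ρ₀.ρ τ⁻¹) hN hgg' hg'g x hx
    hgx
  have hconj : ρ₀.ρ (τ * σ * τ⁻¹) - 1 = ρ₀.ρ τ * N * ρ₀.ρ τ⁻¹ := by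
    rw [map_mul, map_mul, hNdef, mul_sub, sub_mul, mul_one, hgg']
  refine ⟨σ, τ * σ * τ⁻¹, c, hc, hN, ?_, ?_⟩
  · rw [hconj]
    calc ρ₀.ρ τ * N * ρ₀.ρ τ⁻¹ * (ρ₀.ρ τ * N * ρ₀.ρ τ⁻¹)
        = ρ₀.ρ τ * N * (ρ₀.ρ τ⁻¹ * ρ₀.ρ τ) * N * ρ₀.ρ τ⁻¹ := by noncomm_ring
      _ = ρ₀.ρ τ * (N * N) * ρ₀.ρ τ⁻¹ := by rw [hg'g]; noncomm_ring
      _ = 0 := by rw [hN]; simp
  · rw [hconj]
    exact hcN

/-- `hsplit` of S56: over a field `k` in which every monic quadratic polynomial over `𝔽_p` splits,
the characteristic polynomials of `ρ₀ ⊗ k` split. -/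
theorem hsplit_of_quadratic_split (p : ℕ) [Fact p.Prime] {k : Type} [Field k]
    [Algebra (ZMod p) k]
    (hk : ∀ f : (ZMod p)[X], f.Monic → f.natDegree = 2 →
      ∃ α β : k, f.map (algebraMap (ZMod p) k) = (X - C α) * (X - C β))
    (ρ₀ : ResidualGaloisRep (ZMod p))
    (σ : AlgebraicClosure ℚ ≃ₐ[ℚ] AlgebraicClosure ℚ) :
    ∃ α β : k, LinearMap.charpoly ((ρ₀.baseChange k).ρ σ) = (X - C α) * (X - C β) := by
  have h1 : (ρ₀.baseChange k).ρ σ = (ρ₀.ρ σ).baseChange k := rfl
  rw [h1, LinearMap.charpoly_baseChange]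
  refine hk _ (LinearMap.charpoly_monic _) ?_
  rw [LinearMap.charpoly_natDegree, ρ₀.finrank_eq]

/-- Common core of the two irreducibility statements: a subspace of the double base change
stable under the two nilpotents is trivial. -/
theorem s56hyp_core (p : ℕ) [Fact p.Prime] {k : Type} [Field k]
    [Algebra (ZMod p) k] (ρ₀ : ResidualGaloisRep (ZMod p)) (K : Type) [Field K] [Algebra k K]
    (σ σ' : Γℚ) (c : ZMod p) (hc : c ≠ 0)
    (hN : (ρ₀.ρ σ - 1) * (ρ₀.ρ σ - 1) = 0)
    (hNN' : (ρ₀.ρ σ - 1) * (ρ₀.ρ σ' - 1) + (ρ₀.ρ σ' - 1) * (ρ₀.ρ σ - 1) =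
        c • (1 : Module.End (ZMod p) ρ₀.V))
    (V : Submodule K ((ρ₀.baseChange k).baseChange K).V)
    (hσ : ∀ x ∈ V, (((ρ₀.baseChange k).baseChange K).ρ σ - 1) x ∈ V)
    (hσ' : ∀ x ∈ V, (((ρ₀.baseChange k).baseChange K).ρ σ' - 1) x ∈ V) :
    V = ⊥ ∨ V = ⊤ := by
  obtain ⟨h1, h2⟩ := s56hyp_pair_baseChange k (ρ₀.ρ σ - 1) (ρ₀.ρ σ' - 1) c hN hNN'
  obtain ⟨h3, h4⟩ := s56hyp_pair_baseChange K _ _ _ h1 h2
  have hc' : algebraMap k K (algebraMap (ZMod p) k c) ≠ 0 := by
    intro h
    apply hc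
    have := (algebraMap k K).injective ((map_zero (algebraMap k K)).symm ▸ h)
    exact (algebraMap (ZMod p) k).injective ((map_zero (algebraMap (ZMod p) k)).symm ▸ this)
  have e : ∀ τ : Γℚ, ((ρ₀.baseChange k).baseChange K).ρ τ - 1 =
      ((ρ₀.ρ τ - 1).baseChange k).baseChange K := by
    intro τ
    rw [LinearMap.baseChange_sub, LinearMap.baseChange_sub, LinearMap.baseChange_one,
      LinearMap.baseChange_one]
    rfl
  refine s56hyp_stable_bot_or_top ((ρ₀.baseChange k).baseChange K).finrank_eq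
    (((ρ₀.ρ σ - 1).baseChange k).baseChange K) (((ρ₀.ρ σ' - 1).baseChange k).baseChange K)
    _ hc' h3 h4 V ?_ ?_
  · intro w hw
    have := hσ w hw
    rwa [e σ] at this
  · intro w hw
    have := hσ' w hw
    rwa [e σ'] at this

/-- `hTW` of S56: if `ρ₀` is irreducible and its image contains a nontrivial unipotent element, then
the restriction of `ρ₀ ⊗ k` to every subgroup of index `2` is absolutely irreducible. -/
theorem hTW_of_unipotent (p : ℕ) [Fact p.Prime] (hp2 : p ≠ 2) {k : Type} [Field k]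
    [Algebra (ZMod p) k] (ρ₀ : ResidualGaloisRep (ZMod p)) (hirr : ρ₀.IsIrreducible)
    (hunip : ∃ σ : AlgebraicClosure ℚ ≃ₐ[ℚ] AlgebraicClosure ℚ,
      (ρ₀.ρ σ - 1) * (ρ₀.ρ σ - 1) = 0 ∧ ρ₀.ρ σ - 1 ≠ 0) :
    ∀ (K : Type) [Field K] [Algebra k K]
      (G : Subgroup (AlgebraicClosure ℚ ≃ₐ[ℚ] AlgebraicClosure ℚ)), G.index = 2 →
      ∀ V : Submodule K ((ρ₀.baseChange k).baseChange K).V,
        (∀ σ ∈ G, ∀ x ∈ V, ((ρ₀.baseChange k).baseChange K).ρ σ x ∈ V) → V = ⊥ ∨ V = ⊤ := by
  intro K _ _ G hG V hV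
  obtain ⟨σ, σ', c, hc, hN, hN', hNN'⟩ := s56hyp_exists_pair p ρ₀ hirr hunip
  have h2k : (2 : K) ≠ 0 := by
    have h2p : (2 : ZMod p) ≠ 0 := by
      intro h
      have h' : ((2 : ℕ) : ZMod p) = 0 := by exact_mod_cast h
      rw [ZMod.natCast_eq_zero_iff] at h'
      have hp : p.Prime := Fact.out
      exact hp2 ((Nat.prime_dvd_prime_iff_eq hp Nat.prime_two).mp h')
    intro h
    apply h2p
    have h3 : algebraMap k K (algebraMap (ZMod p) k 2) = 0 := by
      rw [map_ofNat, map_ofNat]; exact h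
    have := (algebraMap k K).injective ((map_zero (algebraMap k K)).symm ▸ h3)
    exact (algebraMap (ZMod p) k).injective ((map_zero (algebraMap (ZMod p) k)).symm ▸ this)
  -- stability under `ρ τ - 1` from stability under `ρ (τ * τ)` when `(ρ τ - 1)^2 = 0`
  have hstab : ∀ τ : Γℚ, (ρ₀.ρ τ - 1) * (ρ₀.ρ τ - 1) = 0 →
      ∀ x ∈ V, (((ρ₀.baseChange k).baseChange K).ρ τ - 1) x ∈ V := by
    intro τ hτ x hx
    set R := ((ρ₀.baseChange k).baseChange K).ρ τ with hR
    have hsq : (R - 1) * (R - 1) = 0 := by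
      have e : R - 1 = ((ρ₀.ρ τ - 1).baseChange k).baseChange K := by
        rw [LinearMap.baseChange_sub, LinearMap.baseChange_sub, LinearMap.baseChange_one,
          LinearMap.baseChange_one]
        rfl
      rw [e, ← LinearMap.baseChange_mul, ← LinearMap.baseChange_mul, hτ,
        LinearMap.baseChange_zero, LinearMap.baseChange_zero]
    have hmem := hV (τ * τ) (Subgroup.mul_self_mem_of_index_two hG τ) x hx
    rw [map_mul] at hmem
    have hRR : R * R = 1 + (2 : K) • (R - 1) := by
      have : R * R = (R - 1) * (R - 1) + 1 + 2 • (R - 1) := by noncomm_ring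
      rw [this, hsq, zero_add]
      congr 1
      rw [two_smul, two_smul]
    rw [← hR, hRR] at hmem
    simp only [LinearMap.add_apply, Module.End.one_apply, LinearMap.smul_apply] at hmem
    have h2 : (2 : K) • (R - 1) x ∈ V := by
      have := V.sub_mem hmem hx
      simpa using this
    have := V.smul_mem ((2 : K)⁻¹) h2
    rwa [smul_smul, inv_mul_cancel₀ h2k, one_smul] at this
  exact s56hyp_core p ρ₀ K σ σ' c hc hN hNN' V (hstab σ hN) (hstab σ' hN')

/-- Absolute irreducibility of `ρ₀ ⊗ k` from big image. -/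
theorem isAbsolutelyIrreducible_of_unipotent (p : ℕ) [Fact p.Prime] {k : Type} [Field k]
    [Algebra (ZMod p) k] (ρ₀ : ResidualGaloisRep (ZMod p)) (hirr : ρ₀.IsIrreducible)
    (hunip : ∃ σ : AlgebraicClosure ℚ ≃ₐ[ℚ] AlgebraicClosure ℚ,
      (ρ₀.ρ σ - 1) * (ρ₀.ρ σ - 1) = 0 ∧ ρ₀.ρ σ - 1 ≠ 0) :
    (ρ₀.baseChange k).IsAbsolutelyIrreducible := by
  obtain ⟨σ, σ', c, hc, hN, hN', hNN'⟩ := s56hyp_exists_pair p ρ₀ hirr hunip
  intro V hV
  refine s56hyp_core p ρ₀ (AlgebraicClosure k) σ σ' c hc hN hNN' V ?_ ?_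
  · intro x hx
    have := V.sub_mem (hV σ x hx) hx
    simpa using this
  · intro x hx
    have := V.sub_mem (hV σ' x hx) hx
    simpa using this

end Fermat.Agent.S59
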