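/-
Cluster J (S59), work package J7 (assembly), part 2: Taylor-Wiles levels.
A `TWLevel` is the datum that the Taylor-Wiles construction produces at depth `n`
(a deformation ring `R_Q`, its presentation `γ`, the reduction `R_Q → R`, the diamond algebra map
`ev : 𝒪⟦S₁..S_r⟧ → R_Q`, and a module `M_Q` that is free over `𝒪⟦S⟧ / ((1+S_j)^(l^n) - 1)` with
`M_Q / (S) M_Q = M`).  A family of `TWLevel`s for all `n` gives a `PatchingDatum`, hence (patching
theorem J5 + S57) `M` is free and faithful over `R`.  Owner: helper60.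
-/
import Fermat.Agent.S59.TWSubst
import Fermat.Agent.S59.PatchLimit
import Fermat.Agent.S57

set_option autoImplicit false
set_option linter.style.haveILetI false

namespace Fermat.Agent.S59

open IsLocalRing

/-- The datum produced by the Taylor-Wiles construction at depth `n`. -/
structure TWLevel (𝒪 : Type) [CommRing 𝒪] (l r n : ℕ) (R : Type) [CommRing R] [Algebra 𝒪 R]
    (M : Type) [AddCommGroup M] [Module R M] : Type 1 where
  /-- the auxiliary deformation ring `R_Q` -/
  RQ : Type
  [instCommRing : CommRing RQ]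
  [instAlgebra : Algebra 𝒪 RQ]
  /-- a presentation of `R_Q` -/
  γ : MvPowerSeries (Fin r) 𝒪 →ₐ[𝒪] RQ
  γ_surjective : Function.Surjective γ
  /-- the reduction map `R_Q → R` -/
  red : RQ →ₐ[𝒪] R
  red_surjective : Function.Surjective red
  /-- the diamond algebra map `𝒪⟦S₁..S_r⟧ → R_Q` -/
  ev : MvPowerSeries (Fin r) 𝒪 →ₐ[𝒪] RQ
  red_ev_X : ∀ j : Fin r, red (ev (MvPowerSeries.X j)) = 0
  /-- the Taylor-Wiles module -/
  MQ : Type
  [instAddCommGroup : AddCommGroup MQ]
  [instModule : Module RQ MQ]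
  πM : MQ →+ M
  πM_smul : ∀ (a : RQ) (x : MQ), πM (a • x) = red a • πM x
  πM_surjective : Function.Surjective πM
  ker_πM : ∀ x : MQ, πM x = 0 ↔
    x ∈ (Ideal.span (Set.range fun j : Fin r => ev (MvPowerSeries.X j))) •
      (⊤ : Submodule RQ MQ)
  d : ℕ
  b : Fin d → MQ
  b_span : ∀ x : MQ, ∃ c : Fin d → MvPowerSeries (Fin r) 𝒪, x = ∑ i, ev (c i) • b i
  b_rel : ∀ c : Fin d → MvPowerSeries (Fin r) 𝒪, ∑ i, ev (c i) • b i = 0 ↔
    ∀ i, c i ∈ Ideal.span (Set.range fun j : Fin r =>
      ((1 + MvPowerSeries.X j) ^ (l ^ n) - 1 : MvPowerSeries (Fin r) 𝒪))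

attribute [instance] TWLevel.instCommRing TWLevel.instAlgebra TWLevel.instAddCommGroup
  TWLevel.instModule

section assembly

variable {𝒪 : Type} [CommRing 𝒪] [IsDomain 𝒪] [IsDiscreteValuationRing 𝒪]
  [IsAdicComplete (maximalIdeal 𝒪) 𝒪] [Finite (ResidueField 𝒪)]
  {l r : ℕ} {R : Type} [CommRing R] [Algebra 𝒪 R] {M : Type} [AddCommGroup M] [Module R M]

/-- A Taylor-Wiles level gives a patching level. -/
theorem nonempty_patchingLevel_of_twLevel {n : ℕ} (L : TWLevel 𝒪 l r n R M) :
    Nonempty (Algebra.PatchingLevel 𝒪 r R M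
      (Ideal.span (Set.range fun j : Fin r =>
        ((1 + MvPowerSeries.X j) ^ (l ^ n) - 1 : MvPowerSeries (Fin r) 𝒪)))) := by
  obtain ⟨φ, hφ⟩ := exists_algHom_lift L.γ L.γ_surjective L.ev
  have hφ' : ∀ f, L.γ (φ f) = L.ev f := fun f => by rw [← hφ]; rfl
  letI instN : Module (MvPowerSeries (Fin r) 𝒪) L.MQ := Module.compHom L.MQ L.γ.toRingHom
  have hsmul : ∀ (f : MvPowerSeries (Fin r) 𝒪) (x : L.MQ), f • x = L.γ f • x := fun _ _ => rfl
  have hker : ∀ x : L.MQ,
      x ∈ (Ideal.span (Set.range fun i : Fin r => φ (MvPowerSeries.X i))) •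
        (⊤ : Submodule (MvPowerSeries (Fin r) 𝒪) L.MQ) ↔
      x ∈ (Ideal.span (Set.range fun j : Fin r => L.ev (MvPowerSeries.X j))) •
        (⊤ : Submodule L.RQ L.MQ) := by
    intro x
    constructor
    · intro hx
      refine Submodule.smul_induction_on hx ?_ ?_
      · intro f hf y _
        rw [hsmul]
        refine Submodule.smul_mem_smul ?_ Submodule.mem_top
        have h1 : L.γ.toRingHom f ∈ Ideal.map L.γ.toRingHom
            (Ideal.span (Set.range fun i : Fin r => φ (MvPowerSeries.X i))) :=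
          Ideal.mem_map_of_mem _ hf
        rw [Ideal.map_span] at h1
        refine Ideal.span_mono ?_ h1
        rintro _ ⟨_, ⟨i, rfl⟩, rfl⟩
        exact ⟨i, (hφ' _).symm⟩
      · intro y z hy hz
        exact Submodule.add_mem _ hy hz
    · intro hx
      refine Submodule.smul_induction_on hx ?_ ?_
      · intro a ha y _
        have h1 : a ∈ Ideal.map L.γ.toRingHom
            (Ideal.span (Set.range fun i : Fin r => φ (MvPowerSeries.X i))) := by
          rw [Ideal.map_span]
          refine Ideal.span_mono ?_ ha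
          rintro _ ⟨i, rfl⟩
          exact ⟨φ (MvPowerSeries.X i), ⟨i, rfl⟩, hφ' _⟩
        obtain ⟨f, hf, rfl⟩ :=
          (Ideal.mem_map_iff_of_surjective L.γ.toRingHom L.γ_surjective).mp h1
        have : L.γ.toRingHom f • y = f • y := rfl
        rw [this]
        exact Submodule.smul_mem_smul hf Submodule.mem_top
      · intro y z hy hz
        exact Submodule.add_mem _ hy hz
  exact ⟨{
    N := L.MQ
    instAddCommGroup := inferInstance
    instModule := instN
    φ := φ
    ψ := L.red.comp L.γ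
    ψ_surjective := L.red_surjective.comp L.γ_surjective
    ψ_φ_X := fun i => by
      rw [AlgHom.comp_apply, hφ', L.red_ev_X]
    π := L.πM
    π_smul := fun f x => by
      rw [hsmul, L.πM_smul]
      rfl
    π_surjective := L.πM_surjective
    ker_π := fun x => (L.ker_πM x).trans (hker x).symm
    d := L.d
    b := L.b
    b_span := fun x => by
      obtain ⟨c, hc⟩ := L.b_span x
      refine ⟨c, ?_⟩
      rw [hc]
      refine Finset.sum_congr rfl fun i _ => ?_
      rw [hsmul, hφ']
    b_rel := fun c => by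
      rw [← L.b_rel c]
      have : ∑ i, φ (c i) • L.b i = ∑ i, L.ev (c i) • L.b i :=
        Finset.sum_congr rfl fun i _ => by rw [hsmul, hφ']
      rw [this] }⟩

/-- Taylor-Wiles levels for all `n` give a patching datum. -/
theorem nonempty_patchingDatum_of_twLevels (L : ∀ n : ℕ, Nonempty (TWLevel 𝒪 l r n R M)) :
    Nonempty (Algebra.PatchingDatum 𝒪 l r R M) :=
  ⟨{ level := fun n =>
      (nonempty_patchingLevel_of_twLevel (Classical.choice (L n))).some }⟩

/-- **R = T, module form.**  If Taylor-Wiles levels exist for all `n` (with `l` in the maximal ideal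
of `𝒪`), then `M` is free and faithful over `R`. -/
theorem free_faithful_of_twLevels (hl : (l : 𝒪) ∈ maximalIdeal 𝒪) [Nontrivial M]
    (L : ∀ n : ℕ, Nonempty (TWLevel 𝒪 l r n R M)) :
    Module.Free R M ∧ Module.annihilator R M = ⊥ := by
  obtain ⟨D⟩ := nonempty_patchingDatum_of_twLevels L
  obtain ⟨P⟩ := exists_patchingLevel_bot hl D
  obtain ⟨h1, h2, -⟩ := Fermat.Agent.S57.result P
  exact ⟨h1, h2⟩

/-- **R = T.**  If Taylor-Wiles levels exist for all `n` for a nontrivial `R`-module `M` on which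
`R` acts through a ring homomorphism `φ : R → T`, then `φ` is injective. -/
theorem injective_of_twLevels (hl : (l : 𝒪) ∈ maximalIdeal 𝒪) [Nontrivial M]
    (L : ∀ n : ℕ, Nonempty (TWLevel 𝒪 l r n R M))
    {T : Type} [CommRing T] (φ : R →+* T)
    (hφ : ∀ a : R, φ a = 0 → ∀ x : M, a • x = 0) : Function.Injective φ := by
  obtain ⟨-, h2⟩ := free_faithful_of_twLevels hl L
  rw [injective_iff_map_eq_zero]
  intro a ha
  have : a ∈ Module.annihilator R M := Module.mem_annihilator.mpr (hφ a ha)
  rw [h2] at this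
  exact this

end assembly

end Fermat.Agent.S59
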